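import Mathlib

/-!
# RIB / B2 [TWLOC], abstract part (Mathlib only)

`G` a group acting on abelian groups.  `zop g x = g x + g⁻¹ x - 2 x` (`= (tr ρ(g) - 2) x` when `det ρ(g) = 1`).
`kz T W = {x ∈ W | ∀ g ∈ T, zop g x = 0}`.

* `card_le_card_ker_sq` : `d ∘ d = 0` on a finite group `X` ⟹ `#X ≤ (# ker d)²`.
* `card_kz_insert_le` : ONE STEP.  `io : J³ → J'` equivariant, injective on `W³`, every `τ`-fixed element of `W'` is
  `io v`, `v ∈ W³`; the `zop g` (`g ∈ T ∪ {τ}`) commute with `τ` on `W'`  ⟹  `# W'[Z_τ, Z_T] ≤ (# W[Z_T])⁶`.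
* `card_kz_tower_le` : the iteration along a tower `J 0, J 1, …`.
* `zop_pow_eq_zero` : `τ^(p^ν) = 1` and `p = 0` on `W` ⟹ `(zop τ)^(p^ν) = 0` on `W`.
-/

set_option autoImplicit false

namespace Fermat.Agent.RIB.TWLoc

variable {G : Type*} [Group G]

section Zop

variable {J : Type*} [AddCommGroup J] [DistribMulAction G J]

/-- `Z_g x = g x + g⁻¹ x - 2 x` -/
def zop (g : G) : J →+ J :=
  DistribSMul.toAddMonoidHom J g + DistribSMul.toAddMonoidHom J g⁻¹ - 2 • AddMonoidHom.id J

theorem zop_apply (g : G) (x : J) : zop g x = g • x + g⁻¹ • x - 2 • x := rfl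

/-- `(g - 1)² x = g Z_g x` -/
theorem smul_zop (g : G) (x : J) : g • zop g x = g • (g • x - x) - (g • x - x) := by
  rw [zop_apply, smul_sub, smul_add, smul_inv_smul, smul_sub, two_nsmul, smul_add]
  abel

/-- `W[Z_g : g ∈ T]` -/
def kz (T : Set G) (W : AddSubgroup J) : AddSubgroup J where
  carrier := {x | x ∈ W ∧ ∀ g ∈ T, zop g x = 0}
  zero_mem' := ⟨W.zero_mem, fun _ _ => map_zero _⟩
  add_mem' := by
    rintro a b ⟨ha, ha'⟩ ⟨hb, hb'⟩
    exact ⟨W.add_mem ha hb, fun g hg => by rw [map_add, ha' g hg, hb' g hg, add_zero]⟩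
  neg_mem' := by
    rintro a ⟨ha, ha'⟩
    exact ⟨W.neg_mem ha, fun g hg => by rw [map_neg, ha' g hg, neg_zero]⟩

theorem mem_kz {T : Set G} {W : AddSubgroup J} {x : J} :
    x ∈ kz T W ↔ x ∈ W ∧ ∀ g ∈ T, zop g x = 0 := Iff.rfl

theorem kz_le (T : Set G) (W : AddSubgroup J) : kz T W ≤ W := fun _ h => h.1

theorem kz_empty (W : AddSubgroup J) : kz (∅ : Set G) W = W :=
  le_antisymm (kz_le _ _) fun _ h => ⟨h, fun _ hg => hg.elim⟩

end Zop

/-- `d ∘ d = 0` on a finite group ⟹ `#X ≤ (# ker d)²`. -/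
theorem card_le_card_ker_sq {X : Type*} [AddCommGroup X] [Finite X] (d : X →+ X)
    (hd : ∀ x, d (d x) = 0) : Nat.card X ≤ Nat.card d.ker ^ 2 := by
  have h1 : Nat.card X = Nat.card (X ⧸ d.ker) * Nat.card d.ker :=
    AddSubgroup.card_eq_card_quotient_mul_card_addSubgroup d.ker
  have h2 : Nat.card (X ⧸ d.ker) = Nat.card d.range :=
    Nat.card_congr (QuotientAddGroup.quotientKerEquivRange d).toEquiv
  have h3 : d.range ≤ d.ker := by
    rintro _ ⟨x, rfl⟩
    exact hd x
  have h4 : Nat.card d.range ≤ Nat.card d.ker := AddSubgroup.card_le_of_le h3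
  rw [h1, h2, sq]
  exact Nat.mul_le_mul_right _ h4

section Step

variable {J J' : Type*} [AddCommGroup J] [AddCommGroup J'] [DistribMulAction G J]
  [DistribMulAction G J']

theorem io_zop (io : (Fin 3 → J) →+ J') (hio : ∀ (g : G) v, io (fun i => g • v i) = g • io v)
    (g : G) (v : Fin 3 → J) : io (fun i => zop g (v i)) = zop g (io v) := by
  have e : (fun i => zop g (v i)) = (fun i => g • v i) + (fun i => g⁻¹ • v i) - 2 • v := by
    funext i
    simp [zop_apply]
  rw [e, map_sub, map_add, map_nsmul, hio, hio, zop_apply]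

/-- **One step of the count.** -/
theorem card_kz_insert_le (W : AddSubgroup J) (W' : AddSubgroup J')
    (hfin : (W : Set J).Finite) (hfin' : (W' : Set J').Finite)
    (io : (Fin 3 → J) →+ J') (hio : ∀ (g : G) v, io (fun i => g • v i) = g • io v)
    (inj : ∀ v, (∀ i, v i ∈ W) → io v = 0 → v = 0)
    (τ : G) (T : Set G) (hst : ∀ x ∈ W', τ • x ∈ W')
    (hstW : ∀ g ∈ T, ∀ x ∈ W, zop g x ∈ W)
    (hcomm : ∀ g ∈ insert τ T, ∀ x ∈ W', zop g (τ • x) = τ • zop g x)
    (hfix : ∀ x ∈ W', τ • x = x → ∃ v, (∀ i, v i ∈ W) ∧ io v = x) :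
    Nat.card (kz (insert τ T) W') ≤ Nat.card (kz T W) ^ 6 := by
  have : Finite (kz (insert τ T) W') := (hfin'.subset (kz_le _ _)).to_subtype
  have : Finite (kz T W) := (hfin.subset (kz_le _ _)).to_subtype
  -- the operator `τ - 1` on `X`
  have hmem : ∀ x ∈ kz (insert τ T) W', τ • x - x ∈ kz (insert τ T) W' := by
    intro x hx
    refine ⟨W'.sub_mem (hst x hx.1) hx.1, fun g hg => ?_⟩
    rw [map_sub, hcomm g hg x hx.1, hx.2 g hg, smul_zero, sub_zero]
  let d : kz (insert τ T) W' →+ kz (insert τ T) W' :=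
    { toFun := fun x => ⟨τ • (x : J') - x, hmem x x.2⟩
      map_zero' := by
        apply Subtype.ext
        simp
      map_add' := fun x y => by
        apply Subtype.ext
        simp only [AddSubgroup.coe_add, smul_add]
        abel }
  have hd : ∀ x, d (d x) = 0 := by
    intro x
    apply Subtype.ext
    show τ • (τ • (x : J') - x) - (τ • (x : J') - x) = 0
    rw [← smul_zop, x.2.2 τ (Set.mem_insert _ _), smul_zero]
  have h1 := card_le_card_ker_sq d hd
  -- the kernel injects into `(W[Z_T])³`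
  have hex : ∀ x : d.ker, ∃ v : Fin 3 → kz T W, io (fun i => (v i : J)) = ((x : kz (insert τ T) W') : J') := by
    intro x
    have hx : τ • ((x : kz (insert τ T) W') : J') = ((x : kz (insert τ T) W') : J') := by
      have := congrArg Subtype.val x.2
      exact sub_eq_zero.1 this
    obtain ⟨v, hv, hvx⟩ := hfix _ x.1.2.1 hx
    refine ⟨fun i => ⟨v i, hv i, fun g hg => ?_⟩, hvx⟩
    have h0 : io (fun i => zop g (v i)) = 0 := by
      rw [io_zop io hio, hvx]
      exact x.1.2.2 g (Set.mem_insert_of_mem _ hg)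
    exact congrFun (inj _ (fun i => hstW g hg _ (hv i)) h0) i
  choose s hs using hex
  have hsinj : Function.Injective s := by
    intro x y hxy
    apply Subtype.ext
    apply Subtype.ext
    rw [← hs x, ← hs y, hxy]
  have h2 : Nat.card d.ker ≤ Nat.card (kz T W) ^ 3 := by
    have := Nat.card_le_card_of_injective s hsinj
    rwa [Nat.card_fun, Nat.card_fin] at this
  calc Nat.card (kz (insert τ T) W') ≤ Nat.card d.ker ^ 2 := h1
    _ ≤ (Nat.card (kz T W) ^ 3) ^ 2 := Nat.pow_le_pow_left h2 2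
    _ = Nat.card (kz T W) ^ 6 := by rw [← pow_mul]

end Step

section Tower

variable {J : ℕ → Type*} [∀ i, AddCommGroup (J i)] [∀ i, DistribMulAction G (J i)]

/-- **The iterated count** along a tower. -/
theorem card_kz_tower_le (W : ∀ i, AddSubgroup (J i)) (hfin : ∀ i, (W i : Set (J i)).Finite)
    (io : ∀ i, (Fin 3 → J i) →+ J (i + 1))
    (hio : ∀ i (g : G) v, io i (fun j => g • v j) = g • io i v)
    (τ : ℕ → G) (hst : ∀ i (g : G), ∀ x ∈ W i, g • x ∈ W i) (r : ℕ)
    (inj : ∀ i < r, ∀ v, (∀ j, v j ∈ W i) → io i v = 0 → v = 0)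
    (hcomm : ∀ i ≤ r, ∀ j < r, ∀ h : G, ∀ x ∈ W i, zop (τ j) (h • x) = h • zop (τ j) x)
    (hfix : ∀ i < r, ∀ x ∈ W (i + 1), τ i • x = x → ∃ v, (∀ j, v j ∈ W i) ∧ io i v = x) :
    Nat.card (kz (τ '' Set.Iio r) (W r)) ≤ Nat.card (W 0) ^ 6 ^ r := by
  suffices H : ∀ s ≤ r, Nat.card (kz (τ '' Set.Iio s) (W s)) ≤ Nat.card (W 0) ^ 6 ^ s from
    H r le_rfl
  intro s
  induction s with
  | zero =>
    intro _
    have : τ '' Set.Iio 0 = ∅ := by simp
    rw [this, kz_empty, pow_zero, pow_one]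
  | succ s ih =>
    intro hs
    have e : τ '' Set.Iio (s + 1) = insert (τ s) (τ '' Set.Iio s) := by
      rw [← Set.image_insert_eq]
      congr 1
      ext j
      simp only [Set.mem_Iio, Set.mem_insert_iff]
      omega
    rw [e]
    have hz : ∀ i (g : G), ∀ x ∈ W i, zop g x ∈ W i := fun i g x hx =>
      (W i).sub_mem ((W i).add_mem (hst i g x hx) (hst i g⁻¹ x hx)) ((W i).nsmul_mem hx 2)
    have h1 := card_kz_insert_le (W s) (W (s + 1)) (hfin s) (hfin (s + 1)) (io s) (hio s)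
      (inj s hs) (τ s) (τ '' Set.Iio s) (hst (s + 1) (τ s)) (fun g _ => hz s g)
      (by
        intro g hg x hx
        rcases hg with rfl | ⟨j, hj, rfl⟩
        · exact hcomm (s + 1) hs s hs _ x hx
        · exact hcomm (s + 1) hs j (lt_trans hj hs) _ x hx)
      (hfix s hs)
    calc _ ≤ Nat.card (kz (τ '' Set.Iio s) (W s)) ^ 6 := h1
      _ ≤ (Nat.card (W 0) ^ 6 ^ s) ^ 6 := Nat.pow_le_pow_left (ih (Nat.le_of_succ_le hs)) 6
      _ = Nat.card (W 0) ^ 6 ^ (s + 1) := by rw [← pow_mul, pow_succ]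

end Tower

section Pow

variable {J : Type*} [AddCommGroup J] [DistribMulAction G J]

/-- `τ^(p^ν) = 1` and `p = 0` on the `τ`-stable subgroup `W` ⟹ `(Z_τ)^(p^ν) = 0` on `W`. -/
theorem zop_pow_eq_zero (p : ℕ) [Fact p.Prime] (ν : ℕ) (W : AddSubgroup J) (τ : G)
    (hst : ∀ x ∈ W, τ • x ∈ W) (hst' : ∀ x ∈ W, τ⁻¹ • x ∈ W) (hp : ∀ x ∈ W, p • x = 0)
    (hτ : ∀ x ∈ W, τ ^ (p ^ ν) • x = x) (x : J) (hx : x ∈ W) :
    ((zop τ : J →+ J)^[p ^ ν]) x = 0 := by
  -- work in the ring `AddMonoid.End W`, of characteristic `p`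
  let a : AddMonoid.End W :=
    { toFun := fun x => ⟨τ • (x : J), hst _ x.2⟩
      map_zero' := Subtype.ext (smul_zero τ)
      map_add' := fun x y => Subtype.ext (smul_add τ (x : J) y) }
  let a' : AddMonoid.End W :=
    { toFun := fun x => ⟨τ⁻¹ • (x : J), hst' _ x.2⟩
      map_zero' := Subtype.ext (smul_zero τ⁻¹)
      map_add' := fun x y => Subtype.ext (smul_add τ⁻¹ (x : J) y) }
  have haa' : a * a' = 1 := by
    ext x
    exact smul_inv_smul τ (x : J)
  have ha'a : a' * a = 1 := by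
    ext x
    exact inv_smul_smul τ (x : J)
  have hcm : Commute a' (a - 1) := by
    show a' * (a - 1) = (a - 1) * a'
    rw [mul_sub, sub_mul, haa', ha'a, mul_one, one_mul]
  have h22 : (2 : AddMonoid.End W) = 1 + 1 := one_add_one_eq_two.symm
  have e : a' * (a - 1) ^ 2 = a + a' - 2 := by
    have e1 : a' * (a - 1) = 1 - a' := by rw [mul_sub, ha'a, mul_one]
    rw [sq, ← mul_assoc, e1, sub_mul, one_mul, e1, h22]
    abel
  have hz1 : ∀ y : W, zop τ (y : J) = (((a' * (a - 1) ^ 2 : AddMonoid.End W) y : W) : J) := by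
    intro y
    rw [e, zop_apply, h22, two_nsmul]
    rfl
  have hz : ∀ (n : ℕ) (y : W), ((zop τ : J →+ J)^[n]) (y : J) =
      ((((a' * (a - 1) ^ 2) ^ n : AddMonoid.End W) y : W) : J) := by
    intro n
    induction n with
    | zero => intro y; rfl
    | succ n ih =>
      intro y
      rw [Function.iterate_succ_apply, hz1, ih, pow_succ]
      rfl
  have hapow : ∀ (n : ℕ) (y : W), (((a ^ n : AddMonoid.End W) y : W) : J) = τ ^ n • (y : J) := by
    intro n
    induction n with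
    | zero => intro y; rw [pow_zero, pow_zero, one_smul]; rfl
    | succ n ih =>
      intro y
      rw [pow_succ, pow_succ, mul_smul]
      exact ih (a y)
  have ha1 : a ^ (p ^ ν) = 1 := by
    ext y
    rw [hapow, hτ _ y.2]
    rfl
  rcases subsingleton_or_nontrivial (AddMonoid.End W) with hs | hn
  · have h0 : (⟨x, hx⟩ : W) = 0 := by
      have : (1 : AddMonoid.End W) = 0 := Subsingleton.elim _ _
      exact DFunLike.congr_fun this ⟨x, hx⟩
    have hx0 : x = 0 := congrArg Subtype.val h0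
    rw [hx0]
    exact Function.iterate_fixed (map_zero _) _
  · have hp0 : ((p : ℕ) : AddMonoid.End W) = 0 := by
      ext y
      have : ((p : ℕ) : AddMonoid.End W) y = p • y := by
        rw [← nsmul_one]
        rfl
      rw [this]
      exact hp _ y.2
    have : CharP (AddMonoid.End W) p := (CharP.charP_iff_prime_eq_zero (Fact.out)).2 hp0
    have h1 : (a - 1) ^ (p ^ ν) = 0 := by
      rw [sub_pow_char_pow_of_commute _ _ (Commute.one_right a), ha1, one_pow, sub_self]
    have h2 : (a' * (a - 1) ^ 2) ^ (p ^ ν) = 0 := by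
      rw [(hcm.pow_right 2).mul_pow, ← pow_mul, mul_comm 2, pow_mul, h1, zero_pow two_ne_zero,
        mul_zero]
    have := hz (p ^ ν) ⟨x, hx⟩
    rw [h2] at this
    exact this

end Pow

section Lin

open Module

/-- a nilpotent endomorphism `f` of a space of dimension `≤ e` satisfies `f ^ e = 0`. -/
theorem pow_eq_zero_of_isNilpotent_of_finrank_le {k U : Type*} [Field k] [AddCommGroup U]
    [Module k U] [FiniteDimensional k U] (f : Module.End k U) (hf : IsNilpotent f) {e : ℕ}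
    (he : finrank k U ≤ e) : f ^ e = 0 := by
  have h1 : f ^ finrank k U = 0 := by
    have h2 := LinearMap.aeval_self_charpoly f
    rw [(LinearMap.isNilpotent_iff_charpoly f).1 hf] at h2
    simpa using h2
  obtain ⟨c, rfl⟩ := Nat.exists_eq_add_of_le he
  rw [pow_add, h1, zero_mul]

/-- `#U ≤ p^e` ⟹ `dim U ≤ e`. -/
theorem finrank_le_of_card_le {p : ℕ} [Fact p.Prime] {U : Type*} [AddCommGroup U]
    [Module (ZMod p) U] [Module.Finite (ZMod p) U] {e : ℕ} (h : Nat.card U ≤ p ^ e) :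
    finrank (ZMod p) U ≤ e := by
  rw [Module.natCard_eq_pow_finrank (K := ZMod p), Nat.card_zmod] at h
  exact (Nat.pow_le_pow_iff_right (Fact.out : p.Prime).one_lt).1 h

end Lin

end Fermat.Agent.RIB.TWLoc
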