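import Fermat.Agent.RIB.Main.Defs
import Fermat.Agent.RIB.Star
import Fermat.Agent.RIB.TameAlg
import Fermat.Agent.RIB.TWLoc.Abs

/-!
# RIB / B2 [TWLOC] : consequences of `IsRho`   (useful to every consumer of `IsRho`)

`H : IsRho L p S θ rbar0 π0 ρ Φ`.
* `H.finite : Finite R`, `H.phi_injective`, `H.rho_eq_of_act` (`ρ g` only depends on the action of `g` on `W(L)`),
* `IsRho.ker_eq : ker π0 = maximalIdeal R`, `H.exists_pow_eq_bot`, `IsRho.isUnit_iff`,
* `H.det_rbar`, `H.det_eq_one`, `H.ent` (`rbar0 g = 1` ⟹ `ρ g ≡ 1` mod `m`), `H.trace_sub_two_mem`,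
* `H.trace_smul` (`tr ρ(g) w = g w + g⁻¹ w` if `det ρ g = 1`), `H.coe_trace_sub_two_smul` (`= zop g`),
* `H.exists_pow_inertia`, `H.tame_rel`, `H.pow_smul_eq` : `τ^(p^ν) = 1` on `W(L)` for `τ ∈ I_l`, `l` a TW prime.
-/

set_option autoImplicit false
set_option linter.unusedSectionVars false

noncomputable section

open AlgebraicCurve ModularCurve IsLocalRing

namespace Fermat.Agent.RIB

local notation "Qbar" => AlgebraicClosure ℚ
local notation "GQ" => (AlgebraicClosure ℚ ≃ₐ[ℚ] AlgebraicClosure ℚ)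

/-- `A + adj A = tr A` for `2 × 2` matrices -/
theorem add_adjugate_fin_two {R : Type*} [CommRing R] (A : Matrix (Fin 2) (Fin 2) R) :
    A + A.adjugate = A.trace • (1 : Matrix (Fin 2) (Fin 2) R) := by
  rw [Matrix.adjugate_fin_two]
  ext a b
  fin_cases a <;> fin_cases b <;> simp [Matrix.trace, Fin.sum_univ_two, add_comm]

namespace IsRho

variable {L p : ℕ} [NeZero L] [Fact p.Prime] {S : Set ℕ} {θ : ℕ → ℤ}
  {rbar0 : GQ →* Matrix (Fin 2) (Fin 2) (ZMod p)}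
  {R : Type} [CommRing R] [Algebra (ZMod p) R] [Module R ↥(WS L p S θ)]
  {π0 : R →ₐ[ZMod p] ZMod p} {ρ : GQ →* Matrix (Fin 2) (Fin 2) R}
  {Φ : Matrix (Fin 2) (Fin 2) R →ₐ[R] Module.End R ↥(WS L p S θ)}

theorem finite (H : IsRho L p S θ rbar0 π0 ρ Φ) : Finite R := by
  have hinj : Function.Injective (fun (x : R) (w : ↥(WS L p S θ)) => x • w) := by
    intro x y hxy
    have : ∀ w : ↥(WS L p S θ), (x - y) • w = 0 := fun w => by
      rw [sub_smul, sub_eq_zero]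
      exact congrFun hxy w
    exact sub_eq_zero.1 (H.faithful _ this)
  exact Finite.of_injective _ hinj

theorem phi_injective (H : IsRho L p S θ rbar0 π0 ρ Φ) : Function.Injective Φ := by
  rw [injective_iff_map_eq_zero]
  intro G hG
  ext i j
  refine H.faithful _ fun w => ?_
  exact entry_smul_eq_zero Φ ⊤ (fun _ _ _ => Submodule.mem_top) G
    (fun x _ => by rw [hG]; rfl) i j (Submodule.mem_top)

/-- `ρ g` only depends on the action of `g` on `W(L)`. -/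
theorem rho_eq_of_act (H : IsRho L p S θ rbar0 π0 ρ Φ) {g h : GQ}
    (hgh : ∀ w : ↥(WS L p S θ), g • w = h • w) : ρ g = ρ h := by
  apply H.phi_injective
  ext w
  rw [H.act, H.act, hgh]

theorem pi0_surjective : Function.Surjective π0 := fun c => ⟨algebraMap (ZMod p) R c, by
  rw [AlgHom.commutes]; rfl⟩

theorem ker_eq [IsLocalRing R] : RingHom.ker (π0 : R →+* ZMod p) = maximalIdeal R :=
  IsLocalRing.eq_maximalIdeal (RingHom.ker_isMaximal_of_surjective (π0 : R →+* ZMod p)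
    pi0_surjective)

theorem mem_maximalIdeal_iff [IsLocalRing R] {x : R} : x ∈ maximalIdeal R ↔ π0 x = 0 := by
  rw [← ker_eq (π0 := π0), RingHom.mem_ker]
  rfl

theorem isUnit_iff [IsLocalRing R] {x : R} : IsUnit x ↔ π0 x ≠ 0 := by
  rw [← not_iff_not, not_not, ← mem_maximalIdeal_iff (π0 := π0), mem_maximalIdeal,
    mem_nonunits_iff]

theorem exists_pow_eq_bot [IsLocalRing R] (H : IsRho L p S θ rbar0 π0 ρ Φ) :
    ∃ N : ℕ, maximalIdeal R ^ N = ⊥ := by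
  have := H.finite
  have h := IsArtinianRing.isNilpotent_jacobson_bot (R := R)
  rw [IsLocalRing.jacobson_eq_maximalIdeal ⊥ bot_ne_top] at h
  exact h

theorem isNilpotent_of_mem [IsLocalRing R] (H : IsRho L p S θ rbar0 π0 ρ Φ) {t : R}
    (ht : t ∈ maximalIdeal R) : IsNilpotent t := by
  obtain ⟨N, hN⟩ := H.exists_pow_eq_bot
  refine ⟨N, ?_⟩
  have := Ideal.pow_mem_pow ht N
  rwa [hN, Ideal.mem_bot] at this

theorem natCast_p_eq_zero : ((p : ℕ) : R) = 0 := by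
  have : ((p : ℕ) : R) = algebraMap (ZMod p) R ((p : ℕ) : ZMod p) := by rw [map_natCast]
  rw [this, ZMod.natCast_self, map_zero]

/-- the cyclotomic character is `det rbar0` -/
theorem det_rbar (H : IsRho L p S θ rbar0 π0 ρ Φ) (g : GQ) :
    (rbar0 g).det = ((ExtCitation.cycloChar p g : (ZMod p)ˣ) : ZMod p) := by
  have h1 := congrArg π0 (H.det g)
  rw [AlgHom.commutes] at h1
  rw [← H.lift g]
  have h2 : ((ρ g).map π0).det = π0 (ρ g).det := by
    have := (RingHom.map_det (π0 : R →+* ZMod p) (ρ g)).symm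
    exact this
  rw [h2, h1]
  rfl

theorem det_eq_one (H : IsRho L p S θ rbar0 π0 ρ Φ) {g : GQ} (hg : rbar0 g = 1) :
    (ρ g).det = 1 := by
  rw [H.det g, ← H.det_rbar g, hg, Matrix.det_one, map_one]

theorem ent [IsLocalRing R] (H : IsRho L p S θ rbar0 π0 ρ Φ) {g : GQ} (hg : rbar0 g = 1)
    (i j : Fin 2) : (ρ g - 1) i j ∈ maximalIdeal R := by
  rw [mem_maximalIdeal_iff (π0 := π0), Matrix.sub_apply, map_sub]
  have h1 : π0 (ρ g i j) = (1 : Matrix (Fin 2) (Fin 2) (ZMod p)) i j := by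
    rw [← hg, ← H.lift g]
    rfl
  rw [h1, sub_eq_zero]
  by_cases hij : i = j
  · subst hij
    rw [Matrix.one_apply_eq, Matrix.one_apply_eq, map_one]
  · rw [Matrix.one_apply_ne hij, Matrix.one_apply_ne hij, map_zero]

theorem pi0_trace (H : IsRho L p S θ rbar0 π0 ρ Φ) (g : GQ) :
    π0 (ρ g).trace = (rbar0 g).trace := by
  rw [← H.lift g, Matrix.trace_fin_two, Matrix.trace_fin_two, map_add]
  rfl

theorem pi0_det (H : IsRho L p S θ rbar0 π0 ρ Φ) (g : GQ) :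
    π0 (ρ g).det = (rbar0 g).det := by
  rw [← H.lift g, Matrix.det_fin_two, Matrix.det_fin_two, map_sub, map_mul, map_mul]
  rfl

theorem trace_sub_two_mem [IsLocalRing R] (H : IsRho L p S θ rbar0 π0 ρ Φ) {g : GQ}
    (hg : rbar0 g = 1) : (ρ g).trace - 2 ∈ maximalIdeal R := by
  rw [mem_maximalIdeal_iff (π0 := π0), map_sub, H.pi0_trace, hg, Matrix.trace_fin_two,
    Matrix.one_apply_eq, Matrix.one_apply_eq, map_ofNat]
  norm_num

theorem rho_inv {g : GQ} (hdet : (ρ g).det = 1) :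
    ρ g⁻¹ = (ρ g).adjugate := by
  have h1 : ρ g⁻¹ * ρ g = 1 := by rw [← map_mul, inv_mul_cancel, map_one]
  have h2 : ρ g * (ρ g).adjugate = 1 := by rw [Matrix.mul_adjugate, hdet, one_smul]
  calc ρ g⁻¹ = ρ g⁻¹ * (ρ g * (ρ g).adjugate) := by rw [h2, mul_one]
    _ = (ρ g).adjugate := by rw [← mul_assoc, h1, one_mul]

/-- Cayley-Hamilton: `tr ρ(g) w = g w + g⁻¹ w` if `det ρ(g) = 1`. -/
theorem trace_smul (H : IsRho L p S θ rbar0 π0 ρ Φ) {g : GQ} (hdet : (ρ g).det = 1)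
    (w : ↥(WS L p S θ)) : (ρ g).trace • w = g • w + g⁻¹ • w := by
  rw [← H.act g w, ← H.act g⁻¹ w, rho_inv hdet, ← LinearMap.add_apply, ← map_add,
    add_adjugate_fin_two, map_smul, map_one]
  rfl

theorem coe_trace_sub_two_smul (H : IsRho L p S θ rbar0 π0 ρ Φ) {g : GQ}
    (hdet : (ρ g).det = 1) (w : ↥(WS L p S θ)) :
    ((((ρ g).trace - 2) • w : ↥(WS L p S θ)) : JZero L) = TWLoc.zop g (w : JZero L) := by
  rw [sub_smul, H.trace_smul hdet, two_smul, TWLoc.zop_apply, two_nsmul]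
  rfl

/-- the operators `zop g` (`det ρ g = 1`) commute with the Galois action on `W(L)`. -/
theorem zop_smul_comm (H : IsRho L p S θ rbar0 π0 ρ Φ) {g : GQ} (hdet : (ρ g).det = 1) (h : GQ)
    (x : JZero L) (hx : x ∈ WS L p S θ) : TWLoc.zop g (h • x) = h • TWLoc.zop g x := by
  have h1 := H.coe_trace_sub_two_smul hdet (h • (⟨x, hx⟩ : ↥(WS L p S θ)))
  have h2 := H.coe_trace_sub_two_smul hdet (⟨x, hx⟩ : ↥(WS L p S θ))
  have h3 : ((ρ g).trace - 2) • (h • (⟨x, hx⟩ : ↥(WS L p S θ))) =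
      h • (((ρ g).trace - 2) • (⟨x, hx⟩ : ↥(WS L p S θ))) := by
    rw [← H.act h, ← H.act h, map_smul]
  rw [h3] at h1
  rw [coe_smul_WS, h2] at h1
  exact h1.symm

/-! ### inertia at a prime `l ≠ p` where `rbar0` is unramified -/

section Tame

variable [IsLocalRing R] {l : ℕ} {A : ValuationSubring Qbar}

/-- the image of `I_l` in `Aut W(L)` is a `p`-group. -/
theorem exists_pow_inertia (H : IsRho L p S θ rbar0 π0 ρ Φ) :
    ∃ m : ℕ, ∀ g : GQ, rbar0 g = 1 → ∀ x ∈ WS L p S θ, g ^ (p ^ m) • x = x := by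
  obtain ⟨N, hN⟩ := H.exists_pow_eq_bot
  refine ⟨N, fun g hg x hx => ?_⟩
  have h1 := TameAlg.ent_pow_p_pow (I := maximalIdeal R) (p := p)
    (by rw [natCast_p_eq_zero]; exact Ideal.zero_mem _) (H.ent hg) N
  have h2 : maximalIdeal R ^ (N + 1) = ⊥ := by rw [pow_succ, hN, Ideal.bot_mul]
  rw [h2] at h1
  have h3 : ρ (g ^ (p ^ N)) = 1 := by
    rw [map_pow]
    exact sub_eq_zero.1 h1.eq_zero
  have h4 := H.act (g ^ (p ^ N)) ⟨x, hx⟩
  rw [h3, map_one] at h4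
  exact (congrArg Subtype.val h4).symm

/-- the tame relation `φ τ φ⁻¹ = τ^l` on `W(L)`. -/
theorem tame_rel (H : IsRho L p S θ rbar0 π0 ρ Φ) (hl : l.Prime) (hlp : l ≠ p)
    (hA : A.LiesOverPrime l) (hur : ∀ σ ∈ A.inertiaSubgroupIn ℚ, rbar0 σ = 1)
    {φ : GQ} (hφ : A.IsFrobeniusAt φ l) {τ : GQ} (hτ : τ ∈ A.inertiaSubgroupIn ℚ)
    (w : ↥(WS L p S θ)) : (φ * τ * φ⁻¹) • w = τ ^ l • w := by
  let h : ↥(A.inertiaSubgroupIn ℚ) →* Function.End ↥(WS L p S θ) :=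
    { toFun := fun τ x => (τ : GQ) • x
      map_one' := by
        funext x
        exact one_smul GQ x
      map_mul' := fun τ τ' => by
        funext x
        exact mul_smul (τ : GQ) (τ' : GQ) x }
  have hpow : ∀ (τ : ↥(A.inertiaSubgroupIn ℚ)) (n : ℕ) (x : ↥(WS L p S θ)),
      (h τ ^ n) x = (τ : GQ) ^ n • x := by
    intro τ n x
    rw [← map_pow]
    rfl
  obtain ⟨F, hF1, hF2⟩ := exists_level_torsion L p (NeZero.ne p)
  obtain ⟨m, hm⟩ := H.exists_pow_inertia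
  have hcop : Nat.Coprime (p ^ m) l :=
    Nat.Coprime.pow_left m ((Nat.coprime_primes Fact.out hl).2 (Ne.symm hlp))
  have hconj : φ * τ * φ⁻¹ ∈ A.inertiaSubgroupIn ℚ :=
    S56.conj_mem_inertia hl hA hφ.mem_decompositionSubgroup hτ
  have := S56.tame_frob hl hA h
    ⟨F, hF1, fun σ hσ => by
      funext x
      exact Subtype.ext (hF2 σ hσ x.1 x.2.2)⟩ (p ^ m) hcop
    (fun σ => by
      funext x
      rw [hpow]
      exact Subtype.ext (hm σ (hur σ σ.2) x.1 x.2)) hφ ⟨τ, hτ⟩ hconj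
  have h2 := congrFun this w
  rw [hpow] at h2
  exact h2

/-- **`τ^(p^ν) = 1` on `W(L)`** for `τ ∈ I_l`, `l = p^ν c + 1` a TW prime. -/
theorem pow_smul_eq (H : IsRho L p S θ rbar0 π0 ρ Φ) (hl : l.Prime) {ν c : ℕ}
    (hlv : l = p ^ ν * c + 1) (hc : ¬ p ∣ c) (hν : 0 < ν)
    (hA : A.LiesOverPrime l) (hur : ∀ σ ∈ A.inertiaSubgroupIn ℚ, rbar0 σ = 1)
    {φ : GQ} (hφ : A.IsFrobeniusAt φ l)
    (hdisc : (rbar0 φ).trace ^ 2 - 4 * (rbar0 φ).det ≠ 0)
    {τ : GQ} (hτ : τ ∈ A.inertiaSubgroupIn ℚ) (x : JZero L) (hx : x ∈ WS L p S θ) :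
    τ ^ (p ^ ν) • x = x := by
  have hlp : l ≠ p := by
    intro h
    have hp : p.Prime := Fact.out
    have h1 : p ∣ p ^ ν * c := Dvd.dvd.mul_right (dvd_pow_self p hν.ne') c
    have h2 : p ∣ 1 := by
      have h3 : p ∣ p ^ ν * c + 1 := by rw [← hlv, h]
      exact (Nat.dvd_add_right h1).1 h3
    exact hp.one_lt.ne' (Nat.dvd_one.1 h2)
  obtain ⟨N, hN⟩ := H.exists_pow_eq_bot
  have hrel : ρ φ * ρ τ = ρ τ ^ l * ρ φ := by
    have h1 : ρ (φ * τ * φ⁻¹) = ρ (τ ^ l) := H.rho_eq_of_act (H.tame_rel hl hlp hA hur hφ hτ)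
    have h2 : ρ (φ * τ * φ⁻¹) * ρ φ = ρ φ * ρ τ := by
      rw [← map_mul, ← map_mul, inv_mul_cancel_right]
    rw [← h2, h1, map_pow]
  have hFr : IsUnit (ρ φ) := (Group.isUnit φ).map ρ
  have hd : IsUnit ((ρ φ).trace ^ 2 - 4 * (ρ φ).det) := by
    rw [isUnit_iff (π0 := π0), map_sub, map_pow, map_mul, H.pi0_trace, H.pi0_det, map_ofNat]
    exact hdisc
  have h1 := TameAlg.pow_p_pow_eq_one hN Fact.out
    (by rw [natCast_p_eq_zero]; exact Ideal.zero_mem _) hlv hc hFr hrel (H.ent (hur τ hτ)) hd hν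
  have h4 := H.act (τ ^ (p ^ ν)) ⟨x, hx⟩
  rw [map_pow, h1, map_one] at h4
  exact (congrArg Subtype.val h4).symm

end Tame

end IsRho

end Fermat.Agent.RIB
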