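import Fermat.Agent.RIB.Main.Spec
import Fermat.Agent.RIB.TWLoc.Rho

/-!
# RIB / B2 [TWLOC] : the end algebra   (everything after the tower count)

`twlocOut_of_card` : `H : IsRho ..`, `τ i` with `rbar0 (τ i) = 1`, `τ i ^ (p ^ ν i) = 1` on `W(L)`, and
`# W(L)[Z_{τ i}, all i] ≤ p ^ e`   ⟹   the body of `TWLocOut` with `y i = tr ρ (τ i) - 2`.
-/

set_option autoImplicit false
set_option linter.unusedSectionVars false

noncomputable section

open AlgebraicCurve ModularCurve IsLocalRing Module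

namespace Fermat.Agent.RIB

local notation "GQ" => (AlgebraicClosure ℚ ≃ₐ[ℚ] AlgebraicClosure ℚ)

/-- a nilpotent endomorphism `f` of a vector space of dimension `≤ e` satisfies `f ^ e = 0`. -/
theorem end_pow_eq_zero_of_finrank_le {K V : Type*} [Field K] [AddCommGroup V] [Module K V]
    [FiniteDimensional K V] {f : Module.End K V} (hf : IsNilpotent f) {e : ℕ}
    (he : finrank K V ≤ e) : f ^ e = 0 := by
  obtain ⟨n, hn⟩ := hf
  have h1 : LinearMap.ker (f ^ finrank K V) = ⊤ := by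
    rcases le_total (finrank K V) n with h | h
    · rw [← Module.End.ker_pow_eq_ker_pow_finrank_of_le h, hn, LinearMap.ker_zero]
    · rw [LinearMap.ker_eq_top]
      obtain ⟨c, hc⟩ := Nat.exists_eq_add_of_le h
      rw [hc, pow_add, hn, zero_mul]
  rw [LinearMap.ker_eq_top] at h1
  obtain ⟨c, hc⟩ := Nat.exists_eq_add_of_le he
  rw [hc, pow_add, h1, zero_mul]

/-- a nilpotent element of `R` kills, to the power `e`, a submodule with at most `p ^ e` elements. -/
theorem pow_smul_eq_zero_of_card_le {p : ℕ} [Fact p.Prime] {R V : Type*} [CommRing R]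
    [Algebra (ZMod p) R] [AddCommGroup V] [Module (ZMod p) V] [Module R V]
    [IsScalarTower (ZMod p) R V] [Finite V] (Y : Submodule R V) {e : ℕ}
    (hY : Nat.card Y ≤ p ^ e) {t : R} (ht : IsNilpotent t) {w : V} (hw : w ∈ Y) :
    t ^ e • w = 0 := by
  have hp : p.Prime := Fact.out
  have hfin : finrank (ZMod p) Y ≤ e := by
    have h := Module.natCard_eq_pow_finrank (K := ZMod p) (V := Y)
    rw [Nat.card_zmod] at h
    rw [h] at hY
    exact (Nat.pow_le_pow_iff_right hp.one_lt).1 hY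
  let f : Module.End (ZMod p) Y := (LinearMap.lsmul R Y t).restrictScalars (ZMod p)
  have hfpow : ∀ (n : ℕ) (y : Y), (f ^ n) y = t ^ n • y := by
    intro n
    induction n with
    | zero => intro y; simp
    | succ n ih =>
      intro y
      rw [pow_succ, Module.End.mul_apply, ih, pow_succ, mul_smul]
      rfl
  have hf : IsNilpotent f := by
    obtain ⟨n, hn⟩ := ht
    refine ⟨n, LinearMap.ext fun y => ?_⟩
    rw [hfpow, hn, zero_smul]
    rfl
  have h1 := end_pow_eq_zero_of_finrank_le hf hfin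
  have h2 := hfpow e ⟨w, hw⟩
  rw [h1] at h2
  exact (congrArg Subtype.val h2).symm

variable {L p : ℕ} [NeZero L] [Fact p.Prime] {S : Set ℕ} {θ : ℕ → ℤ}
  {rbar0 : GQ →* Matrix (Fin 2) (Fin 2) (ZMod p)}
  {R : Type} [CommRing R] [IsLocalRing R] [Algebra (ZMod p) R] [Module R ↥(WS L p S θ)]
  [IsScalarTower (ZMod p) R ↥(WS L p S θ)]
  {π0 : R →ₐ[ZMod p] ZMod p} {ρ : GQ →* Matrix (Fin 2) (Fin 2) R}
  {Φ : Matrix (Fin 2) (Fin 2) R →ₐ[R] Module.End R ↥(WS L p S θ)}

/-- powers of `tr ρ(g) - 2` are iterates of `zop g`. -/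
theorem IsRho.coe_trace_sub_two_pow_smul (H : IsRho L p S θ rbar0 π0 ρ Φ) {g : GQ}
    (hdet : (ρ g).det = 1) (n : ℕ) (w : ↥(WS L p S θ)) :
    ((((ρ g).trace - 2) ^ n • w : ↥(WS L p S θ)) : JZero L)
      = ((TWLoc.zop g : JZero L →+ JZero L)^[n]) (w : JZero L) := by
  induction n generalizing w with
  | zero => simp
  | succ n ih =>
    rw [pow_succ, mul_smul, ih, Function.iterate_succ_apply, H.coe_trace_sub_two_smul hdet]

/-- **the end algebra of (TWLOC)** -/
theorem twlocOut_of_card (H : IsRho L p S θ rbar0 π0 ρ Φ) {r : ℕ} (τ : Fin r → GQ)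
    (hτ : ∀ i, rbar0 (τ i) = 1) (ν : Fin r → ℕ)
    (hpow : ∀ i, ∀ x ∈ WS L p S θ, τ i ^ (p ^ ν i) • x = x)
    (X : AddSubgroup (JZero L)) (hXW : X ≤ WS L p S θ)
    (hX : ∀ x ∈ WS L p S θ, (∀ i, TWLoc.zop (τ i) x = 0) → x ∈ X)
    (e : ℕ) (hcard : Nat.card X ≤ p ^ e) :
    ∃ y : Fin r → R, (∀ i (v : ↥(WS L p S θ)), y i ^ (p ^ ν i) • v = 0) ∧
      (∀ t ∈ maximalIdeal R, ∀ w : ↥(WS L p S θ), (∀ i, y i • w = 0) → t ^ e • w = 0) ∧
      finrank (ZMod p) ↥((tors ↥(WS L p S θ) (maximalIdeal R)).restrictScalars (ZMod p)) ≤ e := by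
  have hp : p.Prime := Fact.out
  have : NeZero p := ⟨hp.ne_zero⟩
  have hdet : ∀ i, (ρ (τ i)).det = 1 := fun i => H.det_eq_one (hτ i)
  have : Finite X :=
    Set.Finite.to_subtype ((Set.finite_coe_iff.1 (inferInstanceAs (Finite ↥(WS L p S θ)))).subset hXW)
  let Y : Submodule R ↥(WS L p S θ) :=
    { carrier := {w | ∀ i, ((ρ (τ i)).trace - 2) • w = 0}
      add_mem' := fun {a b} ha hb i => by rw [smul_add, ha i, hb i, add_zero]
      zero_mem' := fun i => smul_zero _
      smul_mem' := fun c a ha i => by rw [smul_comm, ha i, smul_zero] }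
  have hYX : ∀ w : Y, ((w : ↥(WS L p S θ)) : JZero L) ∈ X := fun w =>
    hX _ w.1.2 fun i => by
      rw [← H.coe_trace_sub_two_smul (hdet i) w.1, w.2 i]
      rfl
  have hYcard : Nat.card Y ≤ p ^ e := by
    refine le_trans (Nat.card_le_card_of_injective (fun w : Y => (⟨_, hYX w⟩ : X)) ?_) hcard
    intro a b hab
    exact Subtype.ext (Subtype.ext (congrArg (fun z : X => (z : JZero L)) hab))
  refine ⟨fun i => (ρ (τ i)).trace - 2, fun i v => ?_, fun t ht w hw => ?_, ?_⟩
  · apply Subtype.ext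
    rw [H.coe_trace_sub_two_pow_smul (hdet i)]
    exact TWLoc.zop_pow_eq_zero p (ν i) (WS L p S θ) (τ i) (fun x hx => smul_mem_WS _ hx)
      (fun x hx => smul_mem_WS _ hx) (fun x hx => hx.2) (hpow i) _ v.2
  · exact pow_smul_eq_zero_of_card_le Y hYcard (H.isNilpotent_of_mem ht) (show w ∈ Y from hw)
  · have hle : tors ↥(WS L p S θ) (maximalIdeal R) ≤ Y := fun w hw i =>
      (mem_tors.1 hw) _ (H.trace_sub_two_mem (hτ i))
    have h1 : Nat.card ↥((tors ↥(WS L p S θ) (maximalIdeal R)).restrictScalars (ZMod p))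
        ≤ p ^ e := by
      refine le_trans (Nat.card_le_card_of_injective
        (fun w : ↥((tors ↥(WS L p S θ) (maximalIdeal R)).restrictScalars (ZMod p)) =>
          (⟨w.1, hle w.2⟩ : Y)) ?_) hYcard
      intro a b hab
      exact Subtype.ext (congrArg (fun z : Y => (z : ↥(WS L p S θ))) hab)
    have h := Module.natCard_eq_pow_finrank (K := ZMod p)
      (V := ↥((tors ↥(WS L p S θ) (maximalIdeal R)).restrictScalars (ZMod p)))
    rw [Nat.card_zmod] at h
    rw [h] at h1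
    exact (Nat.pow_le_pow_iff_right hp.one_lt).1 h1

end Fermat.Agent.RIB
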