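import Fermat.Agent.RIB.Main.PerLevel
import Fermat.Agent.RIB.Rho.Main
import Fermat.Agent.RIB.TWLoc.Rho
import Fermat.Agent.RIB.TWLoc.Fin
import Fermat.Agent.RIB.Up.VanishMain

/-!
# RIB / B2 [TWLOC] : the block statement `twloc_out` (RIB/Main/Blocks.lean) from the one-step inputs of RIB/Main/PerLevel.lean

`y i := tr ρ(τ_i) - 2`, `τ_i` a generator of the image of `I_{l_i}` on `W(lvl (i+1))`.
-/

set_option autoImplicit false
set_option linter.unusedSectionVars false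

noncomputable section

open AlgebraicCurve ModularCurve Module IsLocalRing

namespace Fermat.Agent.RIB

local notation "Qbar" => AlgebraicClosure ℚ
local notation "GQ" => (AlgebraicClosure ℚ ≃ₐ[ℚ] AlgebraicClosure ℚ)
local notation "M₂" => Matrix (Fin 2) (Fin 2)

namespace TWLocB

variable {p : ℕ} [Fact p.Prime] {T : Finset ℕ} {θ : ℕ → ℤ} {rbar0 : GQ →* M₂ (ZMod p)}

/-- `Z_g` (`rbar0 g = 1`) commutes with the Galois action on `W(L)`, at every level. -/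
theorem zop_central (EC : ECtx p T θ rbar0) (S : Finset ℕ) (hTS : T ⊆ S) (L : ℕ) [NeZero L]
    (hL : ∀ r : ℕ, r.Prime → r ∣ L * p → r ∈ S) {g : GQ} (hg : rbar0 g = 1) (h : GQ)
    (x : JZero L) (hx : x ∈ WS L p (↑S : Set ℕ) θ) :
    TWLoc.zop g (h • x) = h • TWLoc.zop g x := by
  by_cases hW : WS L p (↑S : Set ℕ) θ = ⊥
  · rw [hW, AddSubgroup.mem_bot] at hx
    subst hx
    have h0 : h • (0 : JZero L) = 0 := map_zero (DistribSMul.toAddMonoidHom (JZero L) h)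
    rw [h0, map_zero, h0]
  · obtain ⟨R, _, _, _, _, _, π0, ρ, Φ, H⟩ := Rho.rhoOut EC S hTS L hL hW
    exact H.zop_smul_comm (H.det_eq_one hg) h x hx

section Step

variable {S : Finset ℕ} {L l ν : ℕ} [NeZero L] [NeZero l]

theorem StepCtx.l_ne_two (EC : ECtx p T θ rbar0) (SC : StepCtx p T θ S L l ν) : l ≠ 2 :=
  fun h => SC.hlT (h ▸ EC.two_mem)

theorem StepCtx.l_ne_p (EC : ECtx p T θ rbar0) (SC : StepCtx p T θ S L l ν) : l ≠ p :=
  fun h => SC.hlT (h ▸ EC.p_mem)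

theorem StepCtx.unram (EC : ECtx p T θ rbar0) (SC : StepCtx p T θ S L l ν)
    {A : ValuationSubring Qbar} (hA : A.LiesOverPrime l) :
    ∀ σ ∈ A.inertiaSubgroupIn ℚ, rbar0 σ = 1 :=
  EC.unram l SC.hl (StepCtx.l_ne_two EC SC) (StepCtx.l_ne_p EC SC) A hA

/-- `l = p^ν c + 1`, `p ∤ c`. -/
theorem StepCtx.exists_c (SC : StepCtx p T θ S L l ν) : ∃ c : ℕ, l = p ^ ν * c + 1 ∧ ¬ p ∣ c := by
  obtain ⟨c, hc⟩ := SC.hdvd
  have h1 := SC.hl.one_lt
  refine ⟨c, by omega, fun ⟨d, hd⟩ => SC.hex ⟨d, ?_⟩⟩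
  rw [hc, hd, pow_succ, mul_assoc]

/-- the discriminant of the Frobenius at `l` is a unit. -/
theorem StepCtx.disc_ne (EC : ECtx p T θ rbar0) (SC : StepCtx p T θ S L l ν)
    {A : ValuationSubring Qbar} (hA : A.LiesOverPrime l) {φ : GQ} (hφ : A.IsFrobeniusAt φ l) :
    (rbar0 φ).trace ^ 2 - 4 * (rbar0 φ).det ≠ 0 := by
  obtain ⟨h1, h2⟩ := EC.frob l SC.hl SC.hlT A hA φ hφ
  obtain ⟨c, hc, -⟩ := StepCtx.exists_c SC
  have hl1 : ((l : ℕ) : ZMod p) = 1 := by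
    rw [hc]
    obtain ⟨ν', rfl⟩ : ∃ ν', ν = ν' + 1 := ⟨ν - 1, by have := SC.hν; omega⟩
    push_cast
    rw [pow_succ, ZMod.natCast_self]
    ring
  rw [h1, h2, hl1]
  intro h0
  have h3 : (((θ l ^ 2 - 4 : ℤ)) : ZMod p) = 0 := by
    push_cast
    rw [← h0]
    ring
  rw [ZMod.intCast_zmod_eq_zero_iff_dvd] at h3
  have h4 : IsUnit (p : ℤ) := SC.disc.isUnit_of_dvd' (dvd_refl _) h3
  have h5 := Int.natAbs_of_isUnit h4
  have hp : p.Prime := Fact.out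
  simp only [Int.natAbs_natCast] at h5
  exact hp.one_lt.ne' h5

/-- a generator of the image of inertia on `W(L l l)`. -/
theorem exists_tau (EC : ECtx p T θ rbar0) (SC : StepCtx p T θ S L l ν)
    {A : ValuationSubring Qbar} (hA : A.LiesOverPrime l) :
    ∃ τ₀ ∈ A.inertiaSubgroupIn ℚ, ∀ x ∈ WS (L * l * l) p (↑S : Set ℕ) θ, τ₀ • x = x →
      ∀ τ ∈ A.inertiaSubgroupIn ℚ, τ • x = x := by
  have hp : p.Prime := Fact.out
  exact exists_tau0 SC.hl hA (WS (L * l * l) p (↑S : Set ℕ) θ) (fun τ _ x hx => smul_mem_WS τ hx) p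
    hp.ne_zero (fun x hx => hx.2) (p ^ ν)
    (Nat.Coprime.pow_left ν ((Nat.coprime_primes hp SC.hl).2 (Ne.symm (StepCtx.l_ne_p EC SC))))
    (fun τ hτ x hx => rho_ord EC SC hA τ hτ x hx.1)

/-- (CTRL) on the `p`-torsion -/
theorem ctrl_WS (EC : ECtx p T θ rbar0) (SC : StepCtx p T θ S L l ν)
    {A : ValuationSubring Qbar} (hA : A.LiesOverPrime l) :
    ∀ x ∈ WS (L * l * l) p (↑S : Set ℕ) θ, (∀ τ ∈ A.inertiaSubgroupIn ℚ, τ • x = x) →
      ∃ v : Fin 3 → JZero L, (∀ i, v i ∈ WS L p (↑S : Set ℕ) θ) ∧ iota L l v = x := by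
  intro x hx hfix
  obtain ⟨v, hv, hvx⟩ := ctrl_surj EC SC hA x hx.1 hfix
  refine ⟨v, fun i => ⟨hv i, ?_⟩, hvx⟩
  have h0 : iota L l (p • v) = 0 := by rw [map_nsmul, hvx, hx.2]
  have := ctrl_inj EC SC (p • v) (fun i => (thetaPart L p (↑S : Set ℕ) θ).nsmul_mem (hv i) p) h0
  exact congrFun this i

/-- **one step of the count** -/
theorem card_step (EC : ECtx p T θ rbar0) (SC : StepCtx p T θ S L l ν)
    {A : ValuationSubring Qbar} (hA : A.LiesOverPrime l) {τ : GQ} (hτ : rbar0 τ = 1)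
    (hfix : ∀ x ∈ WS (L * l * l) p (↑S : Set ℕ) θ, τ • x = x →
      ∀ σ ∈ A.inertiaSubgroupIn ℚ, σ • x = x)
    (D : Set GQ) (hD : ∀ g ∈ D, rbar0 g = 1) :
    Nat.card (TWLoc.kz (insert τ D) (WS (L * l * l) p (↑S : Set ℕ) θ)) ≤
      Nat.card (TWLoc.kz D (WS L p (↑S : Set ℕ) θ)) ^ 6 := by
  have hp : p.Prime := Fact.out
  refine TWLoc.card_kz_insert_le (WS L p (↑S : Set ℕ) θ) (WS (L * l * l) p (↑S : Set ℕ) θ)
    ((finite_torsion_JZero L p hp.ne_zero).subset fun _ hx => hx.2)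
    ((finite_torsion_JZero (L * l * l) p hp.ne_zero).subset fun _ hx => hx.2)
    (iota L l) (fun g v => iota_smul L l g v)
    (fun v hv h0 => ctrl_inj EC SC v (fun i => (hv i).1) h0) τ D
    (fun x hx => smul_mem_WS τ hx)
    (fun g _ x hx => (WS L p (↑S : Set ℕ) θ).sub_mem
      ((WS L p (↑S : Set ℕ) θ).add_mem (smul_mem_WS g hx) (smul_mem_WS g⁻¹ hx))
      ((WS L p (↑S : Set ℕ) θ).nsmul_mem hx 2))
    (fun g hg x hx => zop_central EC S SC.hTS (L * l * l) SC.hS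
      (by rcases hg with rfl | hg
          · exact hτ
          · exact hD g hg) τ x hx)
    (fun x hx hx' => ctrl_WS EC SC hA x hx (hfix x hx hx'))

end Step

variable {L₀ t n : ℕ} [NeZero L₀] {qv : Fin t → Nat.Primes}

/-- the generators `τ_i`. -/
theorem exists_taus (EC : ECtx p T θ rbar0) (TC : TWCtx p T θ L₀ t n qv) :
    ∃ τ : ℕ → GQ, (∀ i, rbar0 (τ i) = 1) ∧ (∀ i < t, τ i ∈ (plcP qv i).inertiaSubgroupIn ℚ) ∧
      ∀ i < t, ∀ x ∈ WS (lvl L₀ (extP qv) i * extP qv i * extP qv i) p (↑(cutS T qv) : Set ℕ) θ,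
        τ i • x = x → ∀ σ ∈ (plcP qv i).inertiaSubgroupIn ℚ, σ • x = x := by
  have key : ∀ i : ℕ, ∃ τ₀ : GQ, rbar0 τ₀ = 1 ∧ (i < t → τ₀ ∈ (plcP qv i).inertiaSubgroupIn ℚ) ∧
      (i < t → ∀ x ∈ WS (lvl L₀ (extP qv) i * extP qv i * extP qv i) p (↑(cutS T qv) : Set ℕ) θ,
        τ₀ • x = x → ∀ σ ∈ (plcP qv i).inertiaSubgroupIn ℚ, σ • x = x) := by
    intro i
    by_cases hi : i < t
    · obtain ⟨τ₀, h1, h2⟩ := exists_tau EC (TC.step EC.p_mem hi) (plcP_liesOver qv hi)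
      exact ⟨τ₀, StepCtx.unram EC (TC.step EC.p_mem hi) (plcP_liesOver qv hi) τ₀ h1,
        fun _ => h1, fun _ => h2⟩
    · exact ⟨1, map_one _, fun h => absurd h hi, fun h => absurd h hi⟩
  choose τ h1 h2 h3 using key
  exact ⟨τ, h1, h2, h3⟩

/-- **the count along the tower** -/
theorem card_tower (EC : ECtx p T θ rbar0) (TC : TWCtx p T θ L₀ t n qv) (τ : ℕ → GQ)
    (h1 : ∀ i, rbar0 (τ i) = 1)
    (h3 : ∀ i < t, ∀ x ∈ WS (lvl L₀ (extP qv) i * extP qv i * extP qv i) p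
      (↑(cutS T qv) : Set ℕ) θ, τ i • x = x → ∀ σ ∈ (plcP qv i).inertiaSubgroupIn ℚ, σ • x = x)
    (r : ℕ) (hr : r ≤ t) :
    Nat.card (TWLoc.kz (τ '' Set.Iio r) (WS (lvl L₀ (extP qv) r) p (↑(cutS T qv) : Set ℕ) θ)) ≤
      Nat.card (WS L₀ p (↑(cutS T qv) : Set ℕ) θ) ^ 6 ^ r := by
  induction r with
  | zero =>
    have : τ '' Set.Iio 0 = ∅ := by simp
    rw [this, TWLoc.kz_empty, pow_zero, pow_one]
    exact le_refl _
  | succ r ih =>
    have e : τ '' Set.Iio (r + 1) = insert (τ r) (τ '' Set.Iio r) := by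
      rw [← Set.image_insert_eq]
      congr 1
      ext j
      simp only [Set.mem_Iio, Set.mem_insert_iff]
      omega
    rw [e]
    have hr' : r < t := hr
    have hs := card_step EC (TC.step EC.p_mem hr') (plcP_liesOver qv hr') (h1 r) (h3 r hr')
      (τ '' Set.Iio r) (by rintro _ ⟨k, -, rfl⟩; exact h1 k)
    calc _ ≤ Nat.card (TWLoc.kz (τ '' Set.Iio r)
            (WS (lvl L₀ (extP qv) r) p (↑(cutS T qv) : Set ℕ) θ)) ^ 6 := hs
      _ ≤ (Nat.card (WS L₀ p (↑(cutS T qv) : Set ℕ) θ) ^ 6 ^ r) ^ 6 :=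
          Nat.pow_le_pow_left (ih hr'.le) 6
      _ = Nat.card (WS L₀ p (↑(cutS T qv) : Set ℕ) θ) ^ 6 ^ (r + 1) := by rw [← pow_mul, pow_succ]

/-- a nilpotent element acts on a submodule of dimension `≤ e` with `e`-th power zero. -/
theorem nil_pow_smul {K R V : Type*} [Field K] [CommRing R] [Algebra K R] [AddCommGroup V]
    [Module K V] [Module R V] [IsScalarTower K R V] [FiniteDimensional K V] (Y : Submodule R V)
    (e : ℕ) (he : finrank K ↥(Y.restrictScalars K) ≤ e) (s : R) (hs : IsNilpotent s) (w : V)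
    (hw : w ∈ Y) : s ^ e • w = 0 := by
  let f : Module.End K ↥(Y.restrictScalars K) :=
    { toFun := fun w => ⟨s • w.1, Y.smul_mem s w.2⟩
      map_add' := fun a b => Subtype.ext (smul_add s a.1 b.1)
      map_smul' := fun c a => Subtype.ext (smul_comm s c a.1) }
  have hf : ∀ (n : ℕ) (a : ↥(Y.restrictScalars K)), (((f ^ n) a : ↥(Y.restrictScalars K)) : V)
      = s ^ n • a.1 := by
    intro n
    induction n with
    | zero => intro a; rw [pow_zero, pow_zero, one_smul]; rfl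
    | succ n ih =>
      intro a
      rw [pow_succ, pow_succ, mul_smul]
      exact ih (f a)
  obtain ⟨N, hN⟩ := hs
  have h1 : (⟨w, hw⟩ : ↥(Y.restrictScalars K)) ∈ LinearMap.ker (f ^ N) := by
    rw [LinearMap.mem_ker]
    apply Subtype.ext
    rw [hf, hN, zero_smul]
    rfl
  have h2 := Module.End.ker_pow_le_ker_pow_finrank f N h1
  rw [LinearMap.mem_ker] at h2
  have h3 := congrArg Subtype.val h2
  rw [hf] at h3
  obtain ⟨d, hd⟩ := Nat.exists_eq_add_of_le he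
  rw [hd, add_comm, pow_add, mul_smul]
  have h4 : s ^ finrank K ↥(Y.restrictScalars K) • w = 0 := h3
  rw [h4, smul_zero]

end TWLocB

open TWLocB in
/-- **(B2, TWLOC)** : same statement as `RIB.twloc_out` (RIB/Main/Blocks.lean). -/
theorem twloc_out' {p : ℕ} [Fact p.Prime] {T : Finset ℕ} {θ : ℕ → ℤ} {rbar0 : GQ →* M₂ (ZMod p)}
    {L₀ t n : ℕ} [NeZero L₀] {qv : Fin t → Nat.Primes}
    (EC : ECtx p T θ rbar0) (TC : TWCtx p T θ L₀ t n qv) :
    TWLocOut (lvl L₀ (extP qv) t) p (↑(cutS T qv) : Set ℕ) θ rbar0 t (nuP p qv)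
      (6 ^ t * finrank (ZMod p) ↥(WS L₀ p (↑(cutS T qv) : Set ℕ) θ)) := by
  intro R _ _ _ _ _ π0 ρ Φ H
  have hp : p.Prime := Fact.out
  have : NeZero p := ⟨hp.ne_zero⟩
  obtain ⟨τ, h1, h2, h3⟩ := exists_taus EC TC
  refine twlocOut_of_card H (fun i : Fin t => τ i) (fun i => h1 i) (nuP p qv) ?_
    (TWLoc.kz (τ '' Set.Iio t) (WS (lvl L₀ (extP qv) t) p (↑(cutS T qv) : Set ℕ) θ))
    (TWLoc.kz_le _ _) ?_ _ ?_
  · intro i x hx
    have SC := TC.step EC.p_mem i.2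
    have hA := plcP_liesOver qv i.2
    obtain ⟨c, hlv, hc⟩ := StepCtx.exists_c SC
    obtain ⟨φ, hφ⟩ := S56.exists_isFrobeniusAt SC.hl hA
    exact H.pow_smul_eq SC.hl hlv hc SC.hν hA (StepCtx.unram EC SC hA) hφ
      (StepCtx.disc_ne EC SC hA hφ) (h2 i i.2) x hx
  · intro x hx h
    refine ⟨hx, ?_⟩
    rintro _ ⟨k, hk, rfl⟩
    exact h ⟨k, hk⟩
  · refine (card_tower EC TC τ h1 h3 t le_rfl).trans_eq ?_
    have h4 := Module.natCard_eq_pow_finrank (K := ZMod p)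
      (V := ↥(WS L₀ p (↑(cutS T qv) : Set ℕ) θ))
    rw [Nat.card_zmod] at h4
    rw [h4, ← pow_mul, mul_comm]

end Fermat.Agent.RIB
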