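import Fermat.Agent.RIB.TWLoc.Rho
import Fermat.Agent.RIB.Main.Spec

/-!
# RIB / B2 [TWLOC] : the hypotheses `hy`, `ctrl2`, `ctrl3` of `end_false` at the top level `lvl L₀ l r`

INPUT
* `TWLoc.IsTWPrime p rbar0 (l i) (ν i) (A i) (φ i)`, `i < r` : `l i = p^(ν i) c + 1` prime, `p ∤ c`, `ν i > 0`, `A i | l i`,
  `rbar0` trivial on `I_(A i)`, `φ i` a Frobenius at `A i`, `disc rbar0 (φ i) ≠ 0`;
* `RhoOut (lvl L₀ l i) p S θ rbar0`, `i ≤ r` : (RHO) at all the levels of the tower (`RIB/Main/Spec.lean`);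
* `TWLoc.CtrlSurj`, `TWLoc.CtrlInj` at `(lvl L₀ l i, l i)`, `i < r` : (CTRL) on `W`;
* `# W(L₀) ≤ p ^ d0`.

OUTPUT `TWLoc.twloc` : `∃ τ : ℕ → G_ℚ`, `τ i ∈ I_(A i)`, such that for EVERY `(R, π0, ρ, Φ)` with `IsRho` at the top level,
`y i := tr ρ(τ i) - 2` satisfies `y i ∈ m`, `hy`, `ctrl2`, `ctrl3` of `end_false` with `e1 = e2 = 6 ^ r * d0`;
`TWLoc.twLocOut : TWLocOut (lvl L₀ l r) p S θ rbar0 r (fun i => ν i) (6 ^ r * d0)`.
-/

set_option autoImplicit false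
set_option linter.unusedSectionVars false

noncomputable section

open AlgebraicCurve ModularCurve IsLocalRing Module

namespace Fermat.Agent.RIB.TWLoc

local notation "Qbar" => AlgebraicClosure ℚ
local notation "GQ" => (AlgebraicClosure ℚ ≃ₐ[ℚ] AlgebraicClosure ℚ)

/-- a Taylor-Wiles prime for `rbar0` (with a place and a Frobenius) -/
structure IsTWPrime (p : ℕ) (rbar0 : GQ →* Matrix (Fin 2) (Fin 2) (ZMod p)) (l ν : ℕ)
    (A : ValuationSubring Qbar) (φ : GQ) : Prop where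
  prime : l.Prime
  eq : ∃ c : ℕ, l = p ^ ν * c + 1 ∧ ¬ p ∣ c
  pos : 0 < ν
  lies : A.LiesOverPrime l
  unram : ∀ σ ∈ A.inertiaSubgroupIn ℚ, rbar0 σ = 1
  frob : A.IsFrobeniusAt φ l
  disc : (rbar0 φ).trace ^ 2 - 4 * (rbar0 φ).det ≠ 0

/-- (CTRL), surjectivity on `W` -/
def CtrlSurj (L l p : ℕ) [NeZero L] [NeZero l] (S : Set ℕ) (θ : ℕ → ℤ)
    (A : ValuationSubring Qbar) : Prop :=
  ∀ x ∈ WS (L * l * l) p S θ, (∀ σ ∈ A.inertiaSubgroupIn ℚ, σ • x = x) →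
    ∃ v : Fin 3 → JZero L, (∀ j, v j ∈ WS L p S θ) ∧ iota L l v = x

/-- (CTRL), injectivity on `W` -/
def CtrlInj (L l p : ℕ) [NeZero L] [NeZero l] (S : Set ℕ) (θ : ℕ → ℤ) : Prop :=
  ∀ v : Fin 3 → JZero L, (∀ j, v j ∈ WS L p S θ) → iota L l v = 0 → v = 0

variable {p : ℕ} [Fact p.Prime] {S : Set ℕ} {θ : ℕ → ℤ}
  {rbar0 : GQ →* Matrix (Fin 2) (Fin 2) (ZMod p)}

section Count

/-- **one step** : the choice of `τ` at the level `L' = L l l` and the count. -/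
theorem exists_tau_step {L l L' : ℕ} [NeZero L] [NeZero l] [NeZero L'] (hL' : L' = L * l * l)
    {ν : ℕ} {A : ValuationSubring Qbar} {φ : GQ} (hT : IsTWPrime p rbar0 l ν A φ)
    (hrho : RhoOut L' p S θ rbar0) (hsurj : CtrlSurj L l p S θ A) (hinj : CtrlInj L l p S θ) :
    ∃ τ ∈ A.inertiaSubgroupIn ℚ, ∀ T : Set GQ, (∀ g ∈ T, rbar0 g = 1) →
      Nat.card ↥(kz (insert τ T) (WS L' p S θ)) ≤ Nat.card ↥(kz T (WS L p S θ)) ^ 6 := by
  subst hL'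
  have hp : p.Prime := Fact.out
  obtain ⟨R, _, _, _, _, _, π0, ρ, Φ, H⟩ := hrho
  obtain ⟨m, hm⟩ := H.exists_pow_inertia
  have hlp : l ≠ p := by
    obtain ⟨c, hc, -⟩ := hT.eq
    intro h
    have h1 : p ∣ p ^ ν * c := Dvd.dvd.mul_right (dvd_pow_self p hT.pos.ne') c
    have h3 : p ∣ p ^ ν * c + 1 := by rw [← hc, h]
    exact hp.one_lt.ne' (Nat.dvd_one.1 ((Nat.dvd_add_right h1).1 h3))
  obtain ⟨τ, h1, h2⟩ := exists_tau0 hT.prime hT.lies (WS (L * l * l) p S θ)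
    (fun τ _ x hx => smul_mem_WS τ hx) p hp.ne_zero (fun x hx => hx.2) (p ^ m)
    (Nat.Coprime.pow_left m ((Nat.coprime_primes hp hT.prime).2 (Ne.symm hlp)))
    (fun τ hτ x hx => hm τ (hT.unram τ hτ) x hx)
  refine ⟨τ, h1, fun T hT1 => ?_⟩
  have hz : ∀ g : GQ, ∀ x ∈ WS L p S θ, zop g x ∈ WS L p S θ := fun g x hx =>
    (WS L p S θ).sub_mem ((WS L p S θ).add_mem (smul_mem_WS g hx) (smul_mem_WS g⁻¹ hx))
      ((WS L p S θ).nsmul_mem hx 2)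
  exact card_kz_insert_le (WS L p S θ) (WS (L * l * l) p S θ)
    ((finite_torsion_JZero L p hp.ne_zero).subset fun _ hx => hx.2)
    ((finite_torsion_JZero (L * l * l) p hp.ne_zero).subset fun _ hx => hx.2)
    (iota L l) (fun g v => iota_smul L l g v) hinj τ T (fun x hx => smul_mem_WS τ hx)
    (fun g _ => hz g)
    (by
      intro g hg x hx
      rcases hg with rfl | hg
      · exact H.zop_smul_comm (H.det_eq_one (hT.unram _ h1)) _ x hx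
      · exact H.zop_smul_comm (H.det_eq_one (hT1 g hg)) _ x hx)
    (fun x hx hfix => hsurj x hx (h2 x hx hfix))

variable (L₀ : ℕ) (l : ℕ → ℕ) [NeZero L₀] [∀ i, NeZero (l i)] {ν : ℕ → ℕ}
  {A : ℕ → ValuationSubring Qbar} {φ : ℕ → GQ} {r : ℕ}

/-- **the choice of the `τ i` and the count.** -/
theorem exists_tau_card (hTW : ∀ i < r, IsTWPrime p rbar0 (l i) (ν i) (A i) (φ i))
    (hrho : ∀ i ≤ r, RhoOut (lvl L₀ l i) p S θ rbar0)
    (hsurj : ∀ i < r, CtrlSurj (lvl L₀ l i) (l i) p S θ (A i))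
    (hinj : ∀ i < r, CtrlInj (lvl L₀ l i) (l i) p S θ)
    {d0 : ℕ} (hd0 : Nat.card ↥(WS L₀ p S θ) ≤ p ^ d0) :
    ∃ τ : ℕ → GQ, (∀ i < r, τ i ∈ (A i).inertiaSubgroupIn ℚ) ∧
      Nat.card ↥(kz (τ '' Set.Iio r) (WS (lvl L₀ l r) p S θ)) ≤ p ^ (6 ^ r * d0) := by
  have key : ∀ i, ∃ τ₀ : GQ, i < r → (τ₀ ∈ (A i).inertiaSubgroupIn ℚ ∧
      ∀ T : Set GQ, (∀ g ∈ T, rbar0 g = 1) →
        Nat.card ↥(kz (insert τ₀ T) (WS (lvl L₀ l (i + 1)) p S θ)) ≤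
          Nat.card ↥(kz T (WS (lvl L₀ l i) p S θ)) ^ 6) := by
    intro i
    by_cases hi : i < r
    · obtain ⟨τ₀, h1, h2⟩ := exists_tau_step (lvl_succ L₀ l i) (hTW i hi) (hrho (i + 1) hi)
        (hsurj i hi) (hinj i hi)
      exact ⟨τ₀, fun _ => ⟨h1, h2⟩⟩
    · exact ⟨1, fun h => absurd h hi⟩
  choose τ hτ using key
  refine ⟨τ, fun i hi => (hτ i hi).1, ?_⟩
  have H : ∀ s ≤ r, Nat.card ↥(kz (τ '' Set.Iio s) (WS (lvl L₀ l s) p S θ)) ≤
      p ^ (6 ^ s * d0) := by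
    intro s
    induction s with
    | zero =>
      intro _
      have : τ '' Set.Iio 0 = ∅ := by simp
      rw [this, kz_empty, pow_zero, one_mul]
      exact hd0
    | succ s ih =>
      intro hs
      have e : τ '' Set.Iio (s + 1) = insert (τ s) (τ '' Set.Iio s) := by
        rw [← Set.image_insert_eq]
        congr 1
        ext j
        simp only [Set.mem_Iio, Set.mem_insert_iff]
        omega
      rw [e]
      have h1 := (hτ s hs).2 (τ '' Set.Iio s) (by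
        rintro _ ⟨j, hj, rfl⟩
        have hj' : j < r := lt_trans hj hs
        exact (hTW j hj').unram _ (hτ j hj').1)
      calc _ ≤ Nat.card ↥(kz (τ '' Set.Iio s) (WS (lvl L₀ l s) p S θ)) ^ 6 := h1
        _ ≤ (p ^ (6 ^ s * d0)) ^ 6 := Nat.pow_le_pow_left (ih (Nat.le_of_succ_le hs)) 6
        _ = p ^ (6 ^ (s + 1) * d0) := by rw [← pow_mul]; congr 1; ring
  exact H r le_rfl

end Count

section Top

variable {L : ℕ} [NeZero L] {R : Type} [CommRing R] [IsLocalRing R] [Algebra (ZMod p) R]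
  [Module R ↥(WS L p S θ)] [IsScalarTower (ZMod p) R ↥(WS L p S θ)]
  {π0 : R →ₐ[ZMod p] ZMod p} {ρ : GQ →* Matrix (Fin 2) (Fin 2) R}
  {Φ : Matrix (Fin 2) (Fin 2) R →ₐ[R] Module.End R ↥(WS L p S θ)}

theorem coe_pow_smul (H : IsRho L p S θ rbar0 π0 ρ Φ) {g : GQ} (hdet : (ρ g).det = 1) (n : ℕ)
    (w : ↥(WS L p S θ)) :
    (((((ρ g).trace - 2) ^ n) • w : ↥(WS L p S θ)) : JZero L) =
      ((zop g : JZero L →+ JZero L)^[n]) (w : JZero L) := by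
  induction n generalizing w with
  | zero => rw [pow_zero, one_smul]; rfl
  | succ n ih =>
    rw [pow_succ, mul_smul, ih, Function.iterate_succ_apply, H.coe_trace_sub_two_smul hdet]

/-- `hy` -/
theorem hy_of_isTWPrime (H : IsRho L p S θ rbar0 π0 ρ Φ) {l ν : ℕ} {A : ValuationSubring Qbar}
    {φ : GQ} (hT : IsTWPrime p rbar0 l ν A φ) {τ : GQ} (hτ : τ ∈ A.inertiaSubgroupIn ℚ)
    (w : ↥(WS L p S θ)) : ((ρ τ).trace - 2) ^ (p ^ ν) • w = 0 := by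
  apply Subtype.ext
  rw [coe_pow_smul H (H.det_eq_one (hT.unram τ hτ))]
  obtain ⟨c, hc, hpc⟩ := hT.eq
  exact zop_pow_eq_zero p ν (WS L p S θ) τ (fun x hx => smul_mem_WS τ hx)
    (fun x hx => smul_mem_WS τ⁻¹ hx) (fun x hx => hx.2)
    (fun x hx => H.pow_smul_eq hT.prime hc hpc hT.pos hT.lies hT.unram hT.frob hT.disc hτ x hx)
    w w.2

/-- `ctrl2` and `ctrl3` from the count. -/
theorem ctrl_of_card (H : IsRho L p S θ rbar0 π0 ρ Φ) {r : ℕ} (τ : ℕ → GQ)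
    (hτ : ∀ i < r, rbar0 (τ i) = 1) {e : ℕ}
    (hcard : Nat.card ↥(kz (τ '' Set.Iio r) (WS L p S θ)) ≤ p ^ e) :
    (∀ t ∈ maximalIdeal R, ∀ w : ↥(WS L p S θ),
      (∀ i : Fin r, ((ρ (τ i)).trace - 2) • w = 0) → t ^ e • w = 0) ∧
    finrank (ZMod p) ↥((tors ↥(WS L p S θ) (maximalIdeal R)).restrictScalars (ZMod p)) ≤ e := by
  have hp : p.Prime := Fact.out
  let U : Submodule R ↥(WS L p S θ) :=
    { carrier := {w | ∀ i : Fin r, ((ρ (τ i)).trace - 2) • w = 0}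
      zero_mem' := fun i => smul_zero _
      add_mem' := fun {a b} ha hb i => by rw [smul_add, ha i, hb i, add_zero]
      smul_mem' := fun c w hw i => by rw [smul_comm, hw i, smul_zero] }
  let Uk : Submodule (ZMod p) ↥(WS L p S θ) := U.restrictScalars (ZMod p)
  have hfin : Finite ↥(kz (τ '' Set.Iio r) (WS L p S θ)) :=
    (((finite_torsion_JZero L p hp.ne_zero).subset fun _ hx => hx.2).subset
      (kz_le _ _)).to_subtype
  have hmemU : ∀ w : ↥Uk, ((w : ↥(WS L p S θ)) : JZero L) ∈ kz (τ '' Set.Iio r) (WS L p S θ) := by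
    intro w
    rw [mem_kz]
    refine ⟨(w : ↥(WS L p S θ)).2, ?_⟩
    rintro _ ⟨j, hj, rfl⟩
    rw [← H.coe_trace_sub_two_smul (H.det_eq_one (hτ j hj))]
    exact congrArg Subtype.val (w.2 ⟨j, hj⟩)
  have hcU : Nat.card ↥Uk ≤ p ^ e := by
    have hinj : Function.Injective (fun w : ↥Uk =>
        (⟨((w : ↥(WS L p S θ)) : JZero L), hmemU w⟩ : ↥(kz (τ '' Set.Iio r) (WS L p S θ)))) := by
      intro a b hab
      apply Subtype.ext
      apply Subtype.ext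
      exact congrArg (fun z : ↥(kz (τ '' Set.Iio r) (WS L p S θ)) => (z : JZero L)) hab
    exact le_trans (Nat.card_le_card_of_injective _ hinj) hcard
  have hdim : finrank (ZMod p) ↥Uk ≤ e := finrank_le_of_card_le hcU
  constructor
  · intro t ht w hw
    let T : Module.End (ZMod p) ↥(WS L p S θ) :=
      (LinearMap.lsmul R ↥(WS L p S θ) t).restrictScalars (ZMod p)
    have hTpow : ∀ (n : ℕ) (x : ↥(WS L p S θ)), (T ^ n) x = t ^ n • x := by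
      intro n
      induction n with
      | zero => intro x; rw [pow_zero, pow_zero, one_smul]; rfl
      | succ n ih =>
        intro x
        rw [pow_succ, pow_succ, Module.End.mul_apply, ih, mul_smul]
        rfl
    have hTU : ∀ x ∈ Uk, T x ∈ Uk := fun x hx => U.smul_mem t hx
    have hnil : IsNilpotent (T.restrict hTU) := by
      obtain ⟨N, hN⟩ := H.isNilpotent_of_mem ht
      refine ⟨N, ?_⟩
      rw [Module.End.pow_restrict]
      apply LinearMap.ext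
      intro x
      apply Subtype.ext
      show (T ^ N) (x : ↥(WS L p S θ)) = 0
      rw [hTpow, hN]
      exact zero_smul R (x : ↥(WS L p S θ))
    have h0 := pow_eq_zero_of_isNilpotent_of_finrank_le _ hnil hdim
    rw [Module.End.pow_restrict] at h0
    have h1 := congrArg Subtype.val (LinearMap.congr_fun h0 (⟨w, hw⟩ : ↥Uk))
    rw [← hTpow]
    exact h1
  · refine le_trans (Submodule.finrank_mono ?_) hdim
    intro w hw i
    exact (mem_tors.1 hw) _ (H.trace_sub_two_mem (hτ i i.2))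

end Top

/-- **B2 [TWLOC].** -/
theorem twloc (L₀ : ℕ) (l : ℕ → ℕ) [NeZero L₀] [∀ i, NeZero (l i)] {ν : ℕ → ℕ}
    {A : ℕ → ValuationSubring Qbar} {φ : ℕ → GQ} {r : ℕ}
    (hTW : ∀ i < r, IsTWPrime p rbar0 (l i) (ν i) (A i) (φ i))
    (hrho : ∀ i ≤ r, RhoOut (lvl L₀ l i) p S θ rbar0)
    (hsurj : ∀ i < r, CtrlSurj (lvl L₀ l i) (l i) p S θ (A i))
    (hinj : ∀ i < r, CtrlInj (lvl L₀ l i) (l i) p S θ)
    {d0 : ℕ} (hd0 : Nat.card ↥(WS L₀ p S θ) ≤ p ^ d0) :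
    ∃ τ : ℕ → GQ, (∀ i < r, τ i ∈ (A i).inertiaSubgroupIn ℚ) ∧
      ∀ (R : Type) [CommRing R] [IsLocalRing R] [Algebra (ZMod p) R]
        [Module R ↥(WS (lvl L₀ l r) p S θ)]
        [IsScalarTower (ZMod p) R ↥(WS (lvl L₀ l r) p S θ)]
        (π0 : R →ₐ[ZMod p] ZMod p) (ρ : GQ →* Matrix (Fin 2) (Fin 2) R)
        (Φ : Matrix (Fin 2) (Fin 2) R →ₐ[R] Module.End R ↥(WS (lvl L₀ l r) p S θ)),
        IsRho (lvl L₀ l r) p S θ rbar0 π0 ρ Φ →
        (∀ i : Fin r, (ρ (τ i)).trace - 2 ∈ maximalIdeal R) ∧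
        (∀ (i : Fin r) (v : ↥(WS (lvl L₀ l r) p S θ)),
          ((ρ (τ i)).trace - 2) ^ (p ^ ν i) • v = 0) ∧
        (∀ t ∈ maximalIdeal R, ∀ w : ↥(WS (lvl L₀ l r) p S θ),
          (∀ i : Fin r, ((ρ (τ i)).trace - 2) • w = 0) → t ^ (6 ^ r * d0) • w = 0) ∧
        finrank (ZMod p) ↥((tors ↥(WS (lvl L₀ l r) p S θ)
          (maximalIdeal R)).restrictScalars (ZMod p)) ≤ 6 ^ r * d0 := by
  obtain ⟨τ, hτ, hcard⟩ := exists_tau_card L₀ l hTW hrho hsurj hinj hd0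
  refine ⟨τ, hτ, ?_⟩
  intro R _ _ _ _ _ π0 ρ Φ H
  have hτ1 : ∀ i < r, rbar0 (τ i) = 1 := fun i hi => (hTW i hi).unram _ (hτ i hi)
  obtain ⟨h2, h3⟩ := ctrl_of_card H τ hτ1 hcard
  exact ⟨fun i => H.trace_sub_two_mem (hτ1 i i.2),
    fun i v => hy_of_isTWPrime H (hTW i i.2) (hτ i i.2) v, h2, h3⟩

/-- **B2 [TWLOC]** in the shape of `RIB/Main/Spec.lean`. -/
theorem twLocOut (L₀ : ℕ) (l : ℕ → ℕ) [NeZero L₀] [∀ i, NeZero (l i)] {ν : ℕ → ℕ}
    {A : ℕ → ValuationSubring Qbar} {φ : ℕ → GQ} {r : ℕ}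
    (hTW : ∀ i < r, IsTWPrime p rbar0 (l i) (ν i) (A i) (φ i))
    (hrho : ∀ i ≤ r, RhoOut (lvl L₀ l i) p S θ rbar0)
    (hsurj : ∀ i < r, CtrlSurj (lvl L₀ l i) (l i) p S θ (A i))
    (hinj : ∀ i < r, CtrlInj (lvl L₀ l i) (l i) p S θ)
    {d0 : ℕ} (hd0 : Nat.card ↥(WS L₀ p S θ) ≤ p ^ d0) :
    TWLocOut (lvl L₀ l r) p S θ rbar0 r (fun i => ν i) (6 ^ r * d0) := by
  obtain ⟨τ, -, h⟩ := twloc L₀ l hTW hrho hsurj hinj hd0
  intro R _ _ _ _ _ π0 ρ Φ H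
  obtain ⟨-, h1, h2, h3⟩ := h R π0 ρ Φ H
  exact ⟨fun i => (ρ (τ i)).trace - 2, h1, h2, h3⟩

end Fermat.Agent.RIB.TWLoc
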