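import Fermat.Agent.RIB.Rho.Main
import Fermat.Agent.RIB.Grow.Tau
import Fermat.Agent.S54.Frobenius

/-!
# RIB : (RHO-ord)  `τ^(p^ν) = 1` on the whole `θ`-part, for `τ ∈ I_l`, `l` a Taylor-Wiles prime

`rho_ord84` = the statement `rho_ord` of `RIB/Main/PerLevel.lean` with the fields of `StepCtx` as explicit hypotheses (so that
`PerLevel` can import this file).

Proof: `V = thetaPart[p^k]`, `(R, ρ, Φ)` from `Rho.exists_rho_tors` (`m = p^k`), `I = nilradical R`; `ρ ≡ rbar0` modulo `I`;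
`S56.tame_frob` gives `φ τ φ⁻¹ = τ^l` on `V`, hence `ρ φ ρ τ = (ρ τ)^l ρ φ` (`Φ` injective); `TameAlg.pow_p_pow_eq_one`.
-/

set_option autoImplicit false
set_option linter.unusedSectionVars false

noncomputable section

open AlgebraicCurve ModularCurve

namespace Fermat.Agent.RIB.TWLoc

open Fermat.Agent.GAL Fermat.Agent.GAL.PC Fermat.Agent.TW.TR

local notation "Qbar" => AlgebraicClosure ℚ
local notation "GQ" => (AlgebraicClosure ℚ ≃ₐ[ℚ] AlgebraicClosure ℚ)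
local notation "M₂" => Matrix (Fin 2) (Fin 2)

/-! ### the abstract statement -/

section Abs

variable {p : ℕ} [Fact p.Prime] {V : Type} [AddCommGroup V] [DistribMulAction GQ V]
  {R : Type} [CommRing R] [Finite R] [Module R V]

theorem isUnit_of_isUnit_mk_nilradical {x : R}
    (h : IsUnit (Ideal.Quotient.mk (nilradical R) x)) : IsUnit x := by
  obtain ⟨y', hy'⟩ := h.exists_right_inv
  obtain ⟨y, rfl⟩ := Ideal.Quotient.mk_surjective y'
  rw [← map_mul, ← map_one (Ideal.Quotient.mk (nilradical R)), Ideal.Quotient.eq,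
    mem_nilradical] at hy'
  have h1 : IsUnit (x * y) := by
    have := hy'.isUnit_add_one
    rwa [sub_add_cancel] at this
  exact isUnit_of_mul_isUnit_left h1

theorem ord_abs (ρ : GQ →* M₂ R) (Φ : M₂ R →ₐ[R] Module.End R V)
    (hact : ∀ (g : GQ) (v : V), Φ (ρ g) v = g • v)
    (hinj : ∀ X : M₂ R, (∀ v : V, Φ X v = 0) → X = 0)
    (hpnil : IsNilpotent ((p : ℕ) : R)) (rbar0 : GQ →* M₂ (ZMod p))
    (hred : ∀ (Q : Type) [CommRing Q] (κ : R →+* Q) (ψ : ZMod p →+* Q),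
      (∀ x, IsNilpotent x → κ x = 0) → ∀ g, (ρ g).map κ = (rbar0 g).map ψ)
    (hcont : ∃ F : IntermediateField ℚ Qbar, FiniteDimensional ℚ F ∧
      ∀ σ : GQ, (∀ y ∈ F, σ y = y) → ∀ v : V, σ • v = v)
    {l ν c : ℕ} (hl : l.Prime) (hlp : l ≠ p) (hlv : l = p ^ ν * c + 1) (hc : ¬ p ∣ c) (hν : 0 < ν)
    {A : ValuationSubring Qbar} (hA : A.LiesOverPrime l)
    (hur : ∀ σ ∈ A.inertiaSubgroupIn ℚ, rbar0 σ = 1) {φ : GQ} (hφ : A.IsFrobeniusAt φ l)
    (hdisc : (rbar0 φ).trace ^ 2 - 4 * (rbar0 φ).det ≠ 0)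
    {τ : GQ} (hτ : τ ∈ A.inertiaSubgroupIn ℚ) (v : V) : τ ^ (p ^ ν) • v = v := by
  have hp : p.Prime := Fact.out
  rcases subsingleton_or_nontrivial R with hsub | hnt
  · -- `V = 0`
    have h0 : ∀ w : V, w = 0 := fun w => by
      rw [← one_smul R w, Subsingleton.elim (1 : R) 0, zero_smul]
    rw [h0 v, smul_zero]
  set I : Ideal R := nilradical R with hI
  obtain ⟨N, hN⟩ : ∃ N : ℕ, I ^ N = ⊥ := IsNoetherianRing.isNilpotent_nilradical R
  have hpI : ((p : ℕ) : R) ∈ I := (mem_nilradical).2 hpnil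
  let κ : R →+* R ⧸ I := Ideal.Quotient.mk I
  have hκ : ∀ x, IsNilpotent x → κ x = 0 := fun x hx =>
    Ideal.Quotient.eq_zero_iff_mem.2 ((mem_nilradical).2 hx)
  have hIne : I ≠ ⊤ := by
    intro h
    have h1 : (1 : R) ∈ nilradical R := by rw [← hI, h]; exact Submodule.mem_top
    exact (not_isNilpotent_one (mem_nilradical.1 h1))
  have : Nontrivial (R ⧸ I) := Ideal.Quotient.nontrivial_iff.2 hIne
  have hp0 : ((p : ℕ) : R ⧸ I) = 0 := by
    rw [← map_natCast κ]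
    exact hκ _ hpnil
  have : CharP (R ⧸ I) p := (CharP.charP_iff_prime_eq_zero hp).2 hp0
  let ψ : ZMod p →+* R ⧸ I := ZMod.castHom (dvd_refl p) (R ⧸ I)
  have hmap : ∀ g, (ρ g).map κ = (rbar0 g).map ψ := hred (R ⧸ I) κ ψ hκ
  -- entries
  have hent : ∀ g : GQ, rbar0 g = 1 → ∀ i j, (ρ g - 1) i j ∈ I := by
    intro g hg i j
    rw [← Ideal.Quotient.eq_zero_iff_mem]
    show κ ((ρ g - 1) i j) = 0
    rw [Matrix.sub_apply, map_sub]
    have h1 : κ (ρ g i j) = ψ ((1 : M₂ (ZMod p)) i j) := by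
      have := congrFun (congrFun (hmap g) i) j
      rw [hg] at this
      exact this
    rw [h1, sub_eq_zero]
    by_cases hij : i = j
    · subst hij
      rw [Matrix.one_apply_eq, Matrix.one_apply_eq, map_one, map_one]
    · rw [Matrix.one_apply_ne hij, Matrix.one_apply_ne hij, map_zero, map_zero]
  have heq : ∀ g h : GQ, (∀ w : V, g • w = h • w) → ρ g = ρ h := by
    intro g h hgh
    rw [← sub_eq_zero]
    refine hinj _ fun w => ?_
    rw [map_sub, LinearMap.sub_apply, hact, hact, hgh, sub_self]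
  -- exponent of inertia
  have hexp : ∀ g : GQ, rbar0 g = 1 → ∀ w : V, g ^ (p ^ N) • w = w := by
    intro g hg w
    have h1 := TameAlg.ent_pow_p_pow (I := I) (p := p) hpI (hent g hg) N
    have h2 : I ^ (N + 1) = ⊥ := by rw [pow_succ, hN, Ideal.bot_mul]
    rw [h2] at h1
    have h3 : ρ (g ^ (p ^ N)) = 1 := by
      rw [map_pow]
      exact sub_eq_zero.1 h1.eq_zero
    have h4 := hact (g ^ (p ^ N)) w
    rw [h3, map_one] at h4
    exact h4.symm
  -- the tame relation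
  have htame : ∀ w : V, (φ * τ * φ⁻¹) • w = τ ^ l • w := by
    intro w
    let h : ↥(A.inertiaSubgroupIn ℚ) →* Function.End V :=
      { toFun := fun τ x => (τ : GQ) • x
        map_one' := by
          funext x
          exact one_smul GQ x
        map_mul' := fun τ τ' => by
          funext x
          exact mul_smul (τ : GQ) (τ' : GQ) x }
    have hpow : ∀ (τ : ↥(A.inertiaSubgroupIn ℚ)) (n : ℕ) (x : V),
        (h τ ^ n) x = (τ : GQ) ^ n • x := by
      intro τ n x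
      rw [← map_pow]
      rfl
    obtain ⟨F, hF1, hF2⟩ := hcont
    have hcop : Nat.Coprime (p ^ N) l :=
      Nat.Coprime.pow_left N ((Nat.coprime_primes hp hl).2 (Ne.symm hlp))
    have hconj : φ * τ * φ⁻¹ ∈ A.inertiaSubgroupIn ℚ :=
      S56.conj_mem_inertia hl hA hφ.mem_decompositionSubgroup hτ
    have := S56.tame_frob hl hA h
      ⟨F, hF1, fun σ hσ => by
        funext x
        exact hF2 σ hσ x⟩ (p ^ N) hcop
      (fun σ => by
        funext x
        rw [hpow]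
        exact hexp σ (hur σ σ.2) x) hφ ⟨τ, hτ⟩ hconj
    have h2 := congrFun this w
    rw [hpow] at h2
    exact h2
  have hrel : ρ φ * ρ τ = ρ τ ^ l * ρ φ := by
    have h1 : ρ (φ * τ * φ⁻¹) = ρ (τ ^ l) := heq _ _ htame
    have h2 : ρ (φ * τ * φ⁻¹) * ρ φ = ρ φ * ρ τ := by
      rw [← map_mul, ← map_mul, inv_mul_cancel_right]
    rw [← h2, h1, map_pow]
  have hFr : IsUnit (ρ φ) := (Group.isUnit φ).map ρ
  have hd : IsUnit ((ρ φ).trace ^ 2 - 4 * (ρ φ).det) := by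
    apply isUnit_of_isUnit_mk_nilradical
    show IsUnit (κ ((ρ φ).trace ^ 2 - 4 * (ρ φ).det))
    have ht : κ (ρ φ).trace = ψ (rbar0 φ).trace := by
      have e1 : κ (ρ φ).trace = ((ρ φ).map κ).trace := by
        rw [Matrix.trace_fin_two, Matrix.trace_fin_two, map_add]
        rfl
      have e2 : ψ (rbar0 φ).trace = ((rbar0 φ).map ψ).trace := by
        rw [Matrix.trace_fin_two, Matrix.trace_fin_two, map_add]
        rfl
      rw [e1, e2, hmap]
    have hdt : κ (ρ φ).det = ψ (rbar0 φ).det := by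
      have e1 : κ (ρ φ).det = ((ρ φ).map κ).det := by
        rw [Matrix.det_fin_two, Matrix.det_fin_two, map_sub, map_mul, map_mul]
        rfl
      have e2 : ψ (rbar0 φ).det = ((rbar0 φ).map ψ).det := by
        rw [Matrix.det_fin_two, Matrix.det_fin_two, map_sub, map_mul, map_mul]
        rfl
      rw [e1, e2, hmap]
    have e : κ ((ρ φ).trace ^ 2 - 4 * (ρ φ).det) =
        ψ ((rbar0 φ).trace ^ 2 - 4 * (rbar0 φ).det) := by
      rw [map_sub, map_pow, map_mul, ht, hdt, map_sub, map_pow, map_mul, map_ofNat, map_ofNat]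
    rw [e]
    exact (isUnit_iff_ne_zero.2 hdisc).map ψ
  have h1 := TameAlg.pow_p_pow_eq_one hN hp hpI hlv hc hFr hrel (hent τ (hur τ hτ)) hd hν
  have h4 := hact (τ ^ (p ^ ν)) v
  rw [map_pow, h1, map_one] at h4
  exact h4.symm

end Abs

/-! ### the `p^k`-torsion of the `θ`-part -/

section XT

variable (N p k : ℕ) [NeZero N] (S : Set ℕ) (θ : ℕ → ℤ)

/-- the `p^k`-torsion of the `θ`-part -/
def XT : AddSubgroup (JZero N) where
  carrier := {x | x ∈ thetaPart N p S θ ∧ p ^ k • x = 0}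
  zero_mem' := ⟨(thetaPart N p S θ).zero_mem, smul_zero _⟩
  add_mem' := by
    rintro a b ⟨ha, ha'⟩ ⟨hb, hb'⟩
    exact ⟨(thetaPart N p S θ).add_mem ha hb, by rw [nsmul_add, ha', hb', add_zero]⟩
  neg_mem' := by
    rintro a ⟨ha, ha'⟩
    exact ⟨(thetaPart N p S θ).neg_mem ha, by rw [neg_nsmul, ha', neg_zero]⟩

variable {N p k S θ}

theorem smul_mem_XT (σ : GQ) {x : JZero N} (hx : x ∈ XT N p k S θ) : σ • x ∈ XT N p k S θ :=
  ⟨smul_mem_thetaPart σ hx.1, by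
    have h := map_nsmul (DistribSMul.toAddMonoidHom (JZero N) σ) (p ^ k) x
    rw [hx.2, map_zero] at h
    exact h.symm⟩

instance instModuleXT : Module (ZMod (p ^ k)) ↥(XT N p k S θ) :=
  AddCommGroup.zmodModule fun x => Subtype.ext x.2.2

instance instActionXT : DistribMulAction GQ ↥(XT N p k S θ) where
  smul σ x := ⟨σ • x.1, smul_mem_XT σ x.2⟩
  one_smul x := Subtype.ext (one_smul GQ x.1)
  mul_smul σ τ x := Subtype.ext (mul_smul σ τ x.1)
  smul_zero σ := Subtype.ext (smul_zero σ)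
  smul_add σ x y := Subtype.ext (smul_add σ x.1 y.1)

instance instSMulCommXT : SMulCommClass GQ (ZMod (p ^ k)) ↥(XT N p k S θ) where
  smul_comm σ c x :=
    ((DistribSMul.toAddMonoidHom ↥(XT N p k S θ) σ).toZModLinearMap (p ^ k)).map_smul c x

theorem finite_XT (hp : p ≠ 0) : Finite ↥(XT N p k S θ) :=
  Set.Finite.to_subtype ((finite_torsion_JZero N (p ^ k) (pow_ne_zero k hp)).subset
    fun _ hx => hx.2)

end XT

/-- **(RHO-ord)** -/
theorem rho_ord84 {p : ℕ} [Fact p.Prime] {T : Finset ℕ} {θ : ℕ → ℤ} {rbar0 : GQ →* M₂ (ZMod p)}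
    (EC : ECtx p T θ rbar0) (S : Finset ℕ) (hTS : T ⊆ S) (N : ℕ) [NeZero N]
    (hS : ∀ r : ℕ, r.Prime → r ∣ N * p → r ∈ S) {l ν : ℕ} (hl : l.Prime) (hlT : l ∉ T)
    (hν : 1 ≤ ν) (hdvd : p ^ ν ∣ l - 1) (hex : ¬ p ^ (ν + 1) ∣ l - 1)
    (disc : IsCoprime (p : ℤ) (θ l ^ 2 - 4))
    {A : ValuationSubring Qbar} (hA : A.LiesOverPrime l) :
    ∀ τ ∈ A.inertiaSubgroupIn ℚ, ∀ x ∈ thetaPart N p (↑S : Set ℕ) θ, τ ^ (p ^ ν) • x = x := by
  intro τ hτ x hx
  have hp : p.Prime := Fact.out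
  obtain ⟨k0, hk0⟩ := hx.1
  -- `k = k0 + 1 ≥ 1`
  have hxk : x ∈ XT N p (k0 + 1) (↑S : Set ℕ) θ :=
    ⟨hx, by rw [pow_succ, mul_nsmul, hk0, smul_zero]⟩
  have : Finite ↥(XT N p (k0 + 1) (↑S : Set ℕ) θ) := finite_XT hp.ne_zero
  obtain ⟨σ₀, τ₀, u0, hu0, hnf⟩ := EC.nf
  obtain ⟨R, iC, iA, iM, iT, iF, t, ρ, Φ, h1, h2, h3, h4, h5, h6, h7, -, h8⟩ :=
    Rho.exists_rho_tors (V := ↥(XT N p (k0 + 1) (↑S : Set ℕ) θ)) (m := p ^ (k0 + 1))
      (XT N p (k0 + 1) (↑S : Set ℕ) θ).subtype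
      Subtype.val_injective (fun _ _ => rfl) hp (j := k0 + 1) rfl
      (dvd_pow_self p (Nat.succ_ne_zero k0)) S hS θ
      (fun r hr v => v.2.1.2 r (fun h => hr (Finset.mem_coe.1 h)))
      rbar0 EC.cont (fun r hr hrS => EC.frob r hr (fun h => hrS (hTS h)))
      (inv_mul_cancel₀ (Rho.ECtx.two_ne_zero EC)) complexConjugation_mul_self
      (Rho.chiM_complexConjugation (p ^ (k0 + 1))) hu0
  obtain ⟨φ, hφ⟩ := S54.exists_isFrobeniusAt_of_liesOverPrime hl A hA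
  have hl2 : l ≠ 2 := fun h => hlT (h ▸ EC.two_mem)
  have hlp : l ≠ p := fun h => hlT (h ▸ EC.p_mem)
  obtain ⟨c, hc⟩ := hdvd
  have hlv : l = p ^ ν * c + 1 := by
    have := hl.one_lt
    omega
  have hpc : ¬ p ∣ c := by
    rintro ⟨d, rfl⟩
    exact hex ⟨d, by rw [hc, pow_succ, mul_assoc]⟩
  have hdisc : (rbar0 φ).trace ^ 2 - 4 * (rbar0 φ).det ≠ 0 := by
    obtain ⟨e1, e2⟩ := EC.frob l hl hlT A hA φ hφ
    have hl1 : ((l : ℕ) : ZMod p) = 1 := by
      rw [hlv]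
      push_cast
      obtain ⟨w, rfl⟩ := Nat.exists_eq_succ_of_ne_zero (by omega : ν ≠ 0)
      rw [pow_succ, ZMod.natCast_self]
      ring
    rw [e1, e2, hl1, mul_one]
    intro h4
    have h5 : (((θ l ^ 2 - 4 : ℤ)) : ZMod p) = 0 := by
      push_cast
      exact h4
    have h6 := (ZMod.intCast_zmod_eq_zero_iff_dvd _ p).1 h5
    exact (Prime.coprime_iff_not_dvd (Nat.prime_iff_prime_int.1 hp)).1 disc h6
  have hpnil : IsNilpotent ((p : ℕ) : R) := by
    refine ⟨k0 + 1, ?_⟩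
    have e : ((p : ℕ) : R) ^ (k0 + 1) =
        algebraMap (ZMod (p ^ (k0 + 1))) R (((p ^ (k0 + 1) : ℕ)) : ZMod (p ^ (k0 + 1))) := by
      rw [map_natCast]
      push_cast
      rfl
    rw [e, ZMod.natCast_self, map_zero]
  obtain ⟨F, hF1, hF2⟩ := exists_level_torsion N (p ^ (k0 + 1)) (pow_ne_zero _ hp.ne_zero)
  have key := ord_abs (p := p) (V := ↥(XT N p (k0 + 1) (↑S : Set ℕ) θ)) ρ Φ h6 h7 hpnil rbar0
    (fun Q _ κ ψ hκ g => by rw [(h8 Q κ ψ hκ g).2, ← hnf g])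
    ⟨F, hF1, fun σ hσ v => Subtype.ext (hF2 σ hσ v.1 v.2.2)⟩
    hl hlp hlv hpc hν hA (EC.unram l hl hl2 hlp A hA) hφ hdisc hτ ⟨x, hxk⟩
  exact congrArg Subtype.val key

end Fermat.Agent.RIB.TWLoc
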